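import Mathlib
import Fermat.Agent.Gateway.Export.Lattice

/-!
P-S48, block G1 (b1), abstract algebra of the "lattice variant" of the Hecke ring.

`Q` is an additive commutative group (in the application `Additive (PEQuot (Gamma1pm M))`), and
`G : CommGens Q` is a set of pairwise commuting endomorphisms of `Q` (the cohomological Hecke and
diamond operators).  This file provides, with no further input:

* `G.TT` : the subring of `End_ℤ Q` generated by `G.gens`, a commutative ring; `G.incl`, `G.gen`,
  `G.generated`, `G.induction`;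
* `G.homAct B : G.TT →+* AddMonoid.End (Q →+ B)` (precomposition), its restriction `G.homActOn` to
  a stable subgroup, and the transport `G.heckeVia e` along `e : X ≃+ (Q →+ B)`;
* `G.exists_faithful`, `G.exists_faithful_via` : `p`-adic faithfulness (for `Q` free of finite
  rank);
* `G.toFormsG`, `G.toFormsPair`, `G.toForms` : the action on forms obtained from an INJECTIVE and
  EQUIVARIANT period map (no surjectivity needed);
* `exists_ne_zero_forall_mem_eq_zero` : the occurrence lemma (a maximal ideal containing the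
  annihilator of a finite module kills a nonzero element).
-/

set_option autoImplicit false

namespace Fermat.Agent.S48x.Coh.AlgebraAbs

open Fermat.Agent.Gateway.Export (Realises)

/-- A set of pairwise commuting endomorphisms of an additive commutative group. -/
structure CommGens (Q : Type*) [AddCommGroup Q] where
  /-- the generators -/
  gens : Set (Module.End ℤ Q)
  comm : ∀ a ∈ gens, ∀ b ∈ gens, a * b = b * a

namespace CommGens

variable {Q : Type*} [AddCommGroup Q] (G : CommGens Q)

/-- The ring generated by the generators. -/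
def TT : Type _ := Subring.closure G.gens

noncomputable instance instCommRingTT : CommRing G.TT :=
  { (Subring.closure G.gens).toRing with
    mul_comm := fun a b => (Subring.isMulCommutative_closure G.comm).is_comm.comm a b }

/-- The inclusion of the Hecke ring into the endomorphism ring of the lattice. -/
def incl : G.TT →+* Module.End ℤ Q := (Subring.closure G.gens).subtype

theorem incl_injective : Function.Injective G.incl := Subtype.val_injective

/-- A generator, as an element of the Hecke ring. -/
def gen (a : Module.End ℤ Q) (ha : a ∈ G.gens) : G.TT := ⟨a, Subring.subset_closure ha⟩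

@[simp] theorem incl_gen (a : Module.End ℤ Q) (ha : a ∈ G.gens) : G.incl (G.gen a ha) = a := rfl

theorem incl_mem (t : G.TT) : G.incl t ∈ Subring.closure G.gens := t.2

/-- Induction principle for the Hecke ring. -/
theorem induction {C : G.TT → Prop} (hgen : ∀ a (ha : a ∈ G.gens), C (G.gen a ha)) (h0 : C 0)
    (h1 : C 1) (hadd : ∀ x y, C x → C y → C (x + y)) (hneg : ∀ x, C x → C (-x))
    (hmul : ∀ x y, C x → C y → C (x * y)) (t : G.TT) : C t := by
  obtain ⟨a, ha⟩ := t
  induction ha using Subring.closure_induction with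
  | mem x hx => exact hgen x hx
  | zero => exact h0
  | one => exact h1
  | add x y hx hy hpx hpy => exact hadd ⟨x, hx⟩ ⟨y, hy⟩ hpx hpy
  | neg x hx hpx => exact hneg ⟨x, hx⟩ hpx
  | mul x y hx hy hpx hpy => exact hmul ⟨x, hx⟩ ⟨y, hy⟩ hpx hpy

/-- The Hecke ring is generated by the generators. -/
theorem generated : Subring.closure {t : G.TT | G.incl t ∈ G.gens} = ⊤ := by
  rw [eq_top_iff]
  suffices h : ∀ t : G.TT, t ∈ Subring.closure {t : G.TT | G.incl t ∈ G.gens} from fun t _ => h t
  intro t
  induction t using G.induction with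
  | hgen a ha => exact Subring.subset_closure (show G.incl (G.gen a ha) ∈ G.gens from ha)
  | h0 => exact Subring.zero_mem _
  | h1 => exact Subring.one_mem _
  | hadd x y hx hy => exact Subring.add_mem _ hx hy
  | hneg x hx => exact Subring.neg_mem _ hx
  | hmul x y hx hy => exact Subring.mul_mem _ hx hy

/-- Any set of elements of the Hecke ring containing all the generators generates it (use this
to obtain `generated` in the shape `Subring.closure (S₁ ∪ Set.range Del) = ⊤`). -/
theorem closure_eq_top_of_gen_mem {s : Set G.TT} (hs : ∀ a (ha : a ∈ G.gens), G.gen a ha ∈ s) :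
    Subring.closure s = ⊤ := by
  rw [eq_top_iff, ← G.generated]
  refine Subring.closure_mono ?_
  rintro ⟨a, ha'⟩ (ha : a ∈ G.gens)
  exact hs a ha

/-- Two ring homomorphisms out of the Hecke ring agreeing on the generators are equal. -/
theorem ringHom_ext {R : Type*} [Ring R] {f g : G.TT →+* R}
    (h : ∀ a (ha : a ∈ G.gens), f (G.gen a ha) = g (G.gen a ha)) : f = g := by
  refine RingHom.ext fun t => ?_
  induction t using G.induction with
  | hgen a ha => exact h a ha
  | h0 => rw [map_zero, map_zero]
  | h1 => rw [map_one, map_one]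
  | hadd x y hx hy => rw [map_add, map_add, hx, hy]
  | hneg x hx => rw [map_neg, map_neg, hx]
  | hmul x y hx hy => rw [map_mul, map_mul, hx, hy]

/-! ### The action on `Hom(Q, B)` -/

section HomAct

variable (B : Type*) [AddCommGroup B]

/-- The action of the Hecke ring on `Hom(Q, B)`, by precomposition. -/
noncomputable def homAct : G.TT →+* AddMonoid.End (Q →+ B) where
  toFun t :=
    { toFun := fun φ => φ.comp (G.incl t).toAddMonoidHom
      map_zero' := rfl
      map_add' := fun _ _ => rfl }
  map_one' := by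
    refine AddMonoidHom.ext fun φ => AddMonoidHom.ext fun x => ?_
    show φ (G.incl 1 x) = φ x
    rw [map_one]
    rfl
  map_mul' a b := by
    refine AddMonoidHom.ext fun φ => AddMonoidHom.ext fun x => ?_
    show φ (G.incl (a * b) x) = φ (G.incl b (G.incl a x))
    rw [mul_comm, map_mul]
    rfl
  map_zero' := by
    refine AddMonoidHom.ext fun φ => AddMonoidHom.ext fun x => ?_
    show φ (G.incl 0 x) = 0
    rw [map_zero, LinearMap.zero_apply, map_zero]
  map_add' a b := by
    refine AddMonoidHom.ext fun φ => AddMonoidHom.ext fun x => ?_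
    show φ (G.incl (a + b) x) = φ (G.incl a x) + φ (G.incl b x)
    rw [map_add, LinearMap.add_apply, map_add]

theorem homAct_apply (t : G.TT) (φ : Q →+ B) :
    G.homAct B t φ = φ.comp (G.incl t).toAddMonoidHom := rfl

theorem homAct_apply_apply (t : G.TT) (φ : Q →+ B) (x : Q) :
    G.homAct B t φ x = φ (G.incl t x) := rfl

theorem homAct_gen (a : Module.End ℤ Q) (ha : a ∈ G.gens) (φ : Q →+ B) :
    G.homAct B (G.gen a ha) φ = φ.comp a.toAddMonoidHom := rfl

variable {B}

/-- A subgroup of `Hom(Q, B)` stable under the generators is stable under the Hecke ring. -/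
theorem homAct_mem {H : AddSubgroup (Q →+ B)}
    (hH : ∀ a ∈ G.gens, ∀ φ ∈ H, φ.comp (LinearMap.toAddMonoidHom a) ∈ H) (t : G.TT)
    {φ : Q →+ B} (hφ : φ ∈ H) : G.homAct B t φ ∈ H := by
  induction t using G.induction generalizing φ with
  | hgen a ha => exact hH a ha φ hφ
  | h0 => rw [map_zero]; exact H.zero_mem
  | h1 => rw [map_one]; exact hφ
  | hadd x y hx hy =>
    rw [map_add]
    exact H.add_mem (hx hφ) (hy hφ)
  | hneg x hx =>
    rw [map_neg]
    exact H.neg_mem (hx hφ)
  | hmul x y hx hy =>
    rw [map_mul]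
    exact hx (hy hφ)

/-- The action of the Hecke ring on a stable subgroup of `Hom(Q, B)`. -/
noncomputable def homActOn (H : AddSubgroup (Q →+ B))
    (hH : ∀ a ∈ G.gens, ∀ φ ∈ H, φ.comp (LinearMap.toAddMonoidHom a) ∈ H) :
    G.TT →+* AddMonoid.End H where
  toFun t :=
    { toFun := fun φ => ⟨G.homAct B t φ, G.homAct_mem hH t φ.2⟩
      map_zero' := Subtype.ext (map_zero _)
      map_add' := fun φ ψ => Subtype.ext (map_add (G.homAct B t) (φ : Q →+ B) ψ) }
  map_one' := by
    refine AddMonoidHom.ext fun φ => Subtype.ext ?_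
    show G.homAct B 1 φ = φ
    rw [map_one]
    rfl
  map_mul' a b := by
    refine AddMonoidHom.ext fun φ => Subtype.ext ?_
    show G.homAct B (a * b) φ = G.homAct B a (G.homAct B b φ)
    rw [map_mul]
    rfl
  map_zero' := by
    refine AddMonoidHom.ext fun φ => Subtype.ext ?_
    show G.homAct B 0 φ = 0
    rw [map_zero]
    rfl
  map_add' a b := by
    refine AddMonoidHom.ext fun φ => Subtype.ext ?_
    show G.homAct B (a + b) φ = G.homAct B a φ + G.homAct B b φ
    rw [map_add]
    rfl

theorem coe_homActOn (H : AddSubgroup (Q →+ B))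
    (hH : ∀ a ∈ G.gens, ∀ φ ∈ H, φ.comp (LinearMap.toAddMonoidHom a) ∈ H) (t : G.TT) (φ : H) :
    ((G.homActOn H hH t φ : H) : Q →+ B) = G.homAct B t φ := rfl

end HomAct

/-- Transport of an endomorphism ring along an additive equivalence. -/
def endTransport {X Y : Type*} [AddCommGroup X] [AddCommGroup Y] (e : X ≃+ Y) :
    AddMonoid.End Y →+* AddMonoid.End X where
  toFun f := (e.symm.toAddMonoidHom.comp f).comp e.toAddMonoidHom
  map_one' := by
    refine AddMonoidHom.ext fun x => ?_
    show e.symm (e x) = x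
    exact e.symm_apply_apply x
  map_mul' f g := by
    refine AddMonoidHom.ext fun x => ?_
    show e.symm (f (g (e x))) = e.symm (f (e (e.symm (g (e x)))))
    rw [e.apply_symm_apply]
  map_zero' := by
    refine AddMonoidHom.ext fun x => ?_
    show e.symm ((0 : AddMonoid.End Y) (e x)) = 0
    exact map_zero e.symm
  map_add' f g := by
    refine AddMonoidHom.ext fun x => ?_
    show e.symm (f (e x) + g (e x)) = e.symm (f (e x)) + e.symm (g (e x))
    exact map_add e.symm _ _

theorem endTransport_apply {X Y : Type*} [AddCommGroup X] [AddCommGroup Y] (e : X ≃+ Y)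
    (f : AddMonoid.End Y) (x : X) : endTransport e f x = e.symm (f (e x)) := rfl

/-- The Hecke action on a group `X` identified with `Hom(Q, B)`. -/
noncomputable def heckeVia {X B : Type*} [AddCommGroup X] [AddCommGroup B] (e : X ≃+ (Q →+ B)) :
    G.TT →+* AddMonoid.End X :=
  (endTransport e).comp (G.homAct B)

theorem heckeVia_apply {X B : Type*} [AddCommGroup X] [AddCommGroup B] (e : X ≃+ (Q →+ B))
    (t : G.TT) (x : X) : G.heckeVia e t x = e.symm (G.homAct B t (e x)) := rfl

theorem apply_heckeVia {X B : Type*} [AddCommGroup X] [AddCommGroup B] (e : X ≃+ (Q →+ B))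
    (t : G.TT) (x : X) : e (G.heckeVia e t x) = (e x).comp (G.incl t).toAddMonoidHom := by
  rw [heckeVia_apply, AddEquiv.apply_symm_apply]
  rfl

/-! ### Faithfulness -/

section Faithful

variable [Module.Free ℤ Q] [Module.Finite ℤ Q]

/-- **`p`-adic faithfulness** of the action on `Hom(Q, ℤ/p^n)`. -/
theorem exists_faithful (p : ℕ) (hp : p.Prime) :
    ∃ c0 : ℕ, ∀ (y : G.TT) (n : ℕ),
      (∀ φ : Q →+ ZMod (p ^ (n + c0)), φ.comp (G.incl y).toAddMonoidHom = 0) →
        ∃ y' : G.TT, y = ((p : ℤ) ^ n) • y' := by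
  obtain ⟨c0, hc0⟩ := Fermat.Agent.Gateway.Export.exists_padic_faithful
    (G.incl : G.TT →+ Module.End ℤ Q) G.incl_injective p hp
  refine ⟨c0, fun y n hkill => ?_⟩
  obtain ⟨u', hu'⟩ := Fermat.Agent.Gateway.Export.exists_eq_smul_of_comp_eq_zero
    (pow_pos hp.pos _).ne' (G.incl y) hkill
  refine hc0 y n u' ?_
  show G.incl y = _
  rw [hu']
  push_cast
  rfl

/-- `p`-adic faithfulness in operator form. -/
theorem exists_faithful_homAct (p : ℕ) (hp : p.Prime) :
    ∃ c0 : ℕ, ∀ (y : G.TT) (n : ℕ), G.homAct (ZMod (p ^ (n + c0))) y = 0 →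
      ∃ y' : G.TT, y = ((p : ℤ) ^ n) • y' := by
  obtain ⟨c0, hc0⟩ := G.exists_faithful p hp
  refine ⟨c0, fun y n hy => hc0 y n fun φ => ?_⟩
  have := DFunLike.congr_fun hy φ
  exact this

/-- `p`-adic faithfulness for modules `X n` identified with `Hom(Q, ℤ/p^n)`: the shape of the
field `faithful` of `TorsionHeckeData1`. -/
theorem exists_faithful_via (p : ℕ) (hp : p.Prime) {X : ℕ → Type*} [∀ n, AddCommGroup (X n)]
    (e : ∀ n, X n ≃+ (Q →+ ZMod (p ^ n))) :
    ∃ c0 : ℕ, ∀ (y : G.TT) (n : ℕ), G.heckeVia (e (n + c0)) y = 0 →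
      ∃ y' : G.TT, y = ((p : ℤ) ^ n) • y' := by
  obtain ⟨c0, hc0⟩ := G.exists_faithful p hp
  refine ⟨c0, fun y n hy => hc0 y n fun φ => ?_⟩
  have h1 := DFunLike.congr_fun hy ((e (n + c0)).symm φ)
  have h2 := G.apply_heckeVia (e (n + c0)) y ((e (n + c0)).symm φ)
  rw [h1, AddEquiv.apply_symm_apply] at h2
  rw [← h2]
  exact map_zero _

end Faithful

/-! ### The action on forms, from an injective equivariant period map -/

section ToForms

variable {V : Type*} [AddCommGroup V] {E : Type*} [Ring E] {B : Type*} [AddCommGroup B]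

/-- `T : E`, acting on `V` through `δ`, is realised on the lattice `Q` by `u`, with respect to the
period map `P`. -/
def RealisesG (P : V →+ (Q →+ B)) (δ : E →+* AddMonoid.End V) (T : E) (u : Module.End ℤ Q) :
    Prop :=
  ∀ v, P (δ T v) = (P v).comp u.toAddMonoidHom

variable {P : V →+ (Q →+ B)} {δ : E →+* AddMonoid.End V}

omit G in
theorem RealisesG.mul {a b : E} {ua ub : Module.End ℤ Q} (ha : RealisesG P δ a ua)
    (hb : RealisesG P δ b ub) : RealisesG P δ (a * b) (ub * ua) := by
  intro v
  rw [map_mul]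
  show P (δ a (δ b v)) = _
  rw [ha, hb]
  rfl

omit G in
theorem RealisesG.add {a b : E} {ua ub : Module.End ℤ Q} (ha : RealisesG P δ a ua)
    (hb : RealisesG P δ b ub) : RealisesG P δ (a + b) (ua + ub) := by
  intro v
  rw [map_add]
  show P (δ a v + δ b v) = _
  rw [map_add, ha v, hb v]
  refine AddMonoidHom.ext fun x => ?_
  show (P v) (ua x) + (P v) (ub x) = (P v) (ua x + ub x)
  rw [map_add]

omit G in
theorem RealisesG.neg {a : E} {ua : Module.End ℤ Q} (ha : RealisesG P δ a ua) :
    RealisesG P δ (-a) (-ua) := by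
  intro v
  rw [map_neg]
  show P (-(δ a v)) = _
  rw [map_neg, ha v]
  refine AddMonoidHom.ext fun x => ?_
  show -((P v) (ua x)) = (P v) (-(ua x))
  rw [map_neg]

omit G in
theorem RealisesG.zero : RealisesG P δ (0 : E) (0 : Module.End ℤ Q) := by
  intro v
  rw [map_zero]
  show P 0 = _
  rw [map_zero]
  refine AddMonoidHom.ext fun x => ?_
  show (0 : B) = (P v) ((0 : Module.End ℤ Q) x)
  rw [LinearMap.zero_apply, map_zero]

omit G in
theorem RealisesG.one : RealisesG P δ (1 : E) (1 : Module.End ℤ Q) := by
  intro v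
  rw [map_one]
  rfl

omit G in
theorem RealisesG.unique (hP : Function.Injective P) (hδ : Function.Injective δ) {a b : E}
    {u : Module.End ℤ Q} (ha : RealisesG P δ a u) (hb : RealisesG P δ b u) : a = b := by
  apply hδ
  refine AddMonoidHom.ext fun v => hP ?_
  exact (ha v).trans (hb v).symm

/-- every element of the Hecke ring is realised on the forms as soon as the generators are. -/
theorem exists_realisesG (hgen : ∀ a ∈ G.gens, ∃ T : E, RealisesG P δ T a) (t : G.TT) :
    ∃ T : E, RealisesG P δ T (G.incl t) := by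
  induction t using G.induction with
  | hgen a ha => exact hgen a ha
  | h0 => exact ⟨0, by rw [map_zero]; exact RealisesG.zero⟩
  | h1 => exact ⟨1, by rw [map_one]; exact RealisesG.one⟩
  | hadd x y hx hy =>
    obtain ⟨Tx, hTx⟩ := hx
    obtain ⟨Ty, hTy⟩ := hy
    exact ⟨Tx + Ty, by rw [map_add]; exact hTx.add hTy⟩
  | hneg x hx =>
    obtain ⟨Tx, hTx⟩ := hx
    exact ⟨-Tx, by rw [map_neg]; exact hTx.neg⟩
  | hmul x y hx hy =>
    obtain ⟨Tx, hTx⟩ := hx
    obtain ⟨Ty, hTy⟩ := hy
    exact ⟨Ty * Tx, by rw [map_mul]; exact hTy.mul hTx⟩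

/-- **The action on forms** (general form): the ring homomorphism `G.TT →+* E` determined by an
injective period map `P` for which every generator is realised by an element of `E`. -/
noncomputable def toFormsG (hP : Function.Injective P) (hδ : Function.Injective δ)
    (hgen : ∀ a ∈ G.gens, ∃ T : E, RealisesG P δ T a) : G.TT →+* E where
  toFun t := (G.exists_realisesG hgen t).choose
  map_one' := by
    refine RealisesG.unique hP hδ (G.exists_realisesG hgen 1).choose_spec ?_
    rw [map_one]
    exact RealisesG.one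
  map_mul' x y := by
    refine RealisesG.unique hP hδ (G.exists_realisesG hgen (x * y)).choose_spec ?_
    rw [mul_comm, map_mul]
    exact (G.exists_realisesG hgen x).choose_spec.mul (G.exists_realisesG hgen y).choose_spec
  map_zero' := by
    refine RealisesG.unique hP hδ (G.exists_realisesG hgen 0).choose_spec ?_
    rw [map_zero]
    exact RealisesG.zero
  map_add' x y := by
    refine RealisesG.unique hP hδ (G.exists_realisesG hgen (x + y)).choose_spec ?_
    rw [map_add]
    exact (G.exists_realisesG hgen x).choose_spec.add (G.exists_realisesG hgen y).choose_spec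

theorem toFormsG_spec (hP : Function.Injective P) (hδ : Function.Injective δ)
    (hgen : ∀ a ∈ G.gens, ∃ T : E, RealisesG P δ T a) (t : G.TT) :
    RealisesG P δ (G.toFormsG hP hδ hgen t) (G.incl t) :=
  (G.exists_realisesG hgen t).choose_spec

theorem toFormsG_eq (hP : Function.Injective P) (hδ : Function.Injective δ)
    (hgen : ∀ a ∈ G.gens, ∃ T : E, RealisesG P δ T a) (t : G.TT) {T : E}
    (hT : RealisesG P δ T (G.incl t)) : G.toFormsG hP hδ hgen t = T :=
  RealisesG.unique hP hδ (G.toFormsG_spec hP hδ hgen t) hT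

theorem toFormsG_gen (hP : Function.Injective P) (hδ : Function.Injective δ)
    (hgen : ∀ a ∈ G.gens, ∃ T : E, RealisesG P δ T a) (a : Module.End ℤ Q) (ha : a ∈ G.gens)
    {T : E} (hT : RealisesG P δ T a) : G.toFormsG hP hδ hgen (G.gen a ha) = T :=
  G.toFormsG_eq hP hδ hgen _ hT

/-- equivariance of the period map for the whole Hecke ring. -/
theorem period_toFormsG (hP : Function.Injective P) (hδ : Function.Injective δ)
    (hgen : ∀ a ∈ G.gens, ∃ T : E, RealisesG P δ T a) (t : G.TT) (v : V) :
    P (δ (G.toFormsG hP hδ hgen t) v) = G.homAct B t (P v) :=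
  G.toFormsG_spec hP hδ hgen t v

end ToForms

/-! ### Special cases: a single period map, and the pair version of the gateway -/

section Single

variable {K : Type*} [Semiring K] {W : Type*} [AddCommGroup W] [Module K W]
  {B : Type*} [AddCommGroup B]

/-- linear endomorphisms as additive endomorphisms. -/
def endToAdd (K : Type*) [Semiring K] (W : Type*) [AddCommGroup W] [Module K W] :
    Module.End K W →+* AddMonoid.End W where
  toFun T := T.toAddMonoidHom
  map_one' := rfl
  map_mul' _ _ := rfl
  map_zero' := rfl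
  map_add' _ _ := rfl

theorem endToAdd_apply (T : Module.End K W) (w : W) : endToAdd K W T w = T w := rfl

theorem endToAdd_injective : Function.Injective (endToAdd K W) := by
  intro a b h
  refine LinearMap.ext fun w => ?_
  exact DFunLike.congr_fun h w

/-- **The action on forms**, for a single injective period map `P : W → Hom(Q, B)`, equivariant
for the generators. -/
noncomputable def toForms (P : W →+ (Q →+ B)) (hP : Function.Injective P)
    (hgen : ∀ a ∈ G.gens, ∃ T : Module.End K W, ∀ w, P (T w) = (P w).comp a.toAddMonoidHom) :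
    G.TT →+* Module.End K W :=
  G.toFormsG (P := P) (δ := endToAdd K W) hP endToAdd_injective hgen

theorem period_toForms (P : W →+ (Q →+ B)) (hP : Function.Injective P)
    (hgen : ∀ a ∈ G.gens, ∃ T : Module.End K W, ∀ w, P (T w) = (P w).comp a.toAddMonoidHom)
    (t : G.TT) (w : W) :
    P (G.toForms P hP hgen t w) = (P w).comp (G.incl t).toAddMonoidHom :=
  G.toFormsG_spec (P := P) (δ := endToAdd K W) hP endToAdd_injective hgen t w

theorem toForms_gen (P : W →+ (Q →+ B)) (hP : Function.Injective P)
    (hgen : ∀ a ∈ G.gens, ∃ T : Module.End K W, ∀ w, P (T w) = (P w).comp a.toAddMonoidHom)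
    (a : Module.End ℤ Q) (ha : a ∈ G.gens) {T : Module.End K W}
    (hT : ∀ w, P (T w) = (P w).comp a.toAddMonoidHom) :
    G.toForms P hP hgen (G.gen a ha) = T :=
  G.toFormsG_gen (P := P) (δ := endToAdd K W) hP endToAdd_injective hgen a ha hT

end Single

section Pair

variable {W : Type*} [AddCommGroup W] [Module ℂ W]

/-- the diagonal action of `End W` on `W × W`. -/
def diagEnd (W : Type*) [AddCommGroup W] [Module ℂ W] :
    Module.End ℂ W →+* AddMonoid.End (W × W) where
  toFun T := (T.prodMap T).toAddMonoidHom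
  map_one' := by
    refine AddMonoidHom.ext fun w => ?_
    rfl
  map_mul' a b := by
    refine AddMonoidHom.ext fun w => ?_
    rfl
  map_zero' := by
    refine AddMonoidHom.ext fun w => ?_
    rfl
  map_add' a b := by
    refine AddMonoidHom.ext fun w => ?_
    rfl

theorem diagEnd_apply (T : Module.End ℂ W) (w : W × W) : diagEnd W T w = T.prodMap T w := rfl

theorem diagEnd_injective : Function.Injective (diagEnd W) := by
  intro a b h
  refine LinearMap.ext fun w => ?_
  have := DFunLike.congr_fun h (w, 0)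
  exact congrArg Prod.fst this

variable (P : (W × W) →ₗ[ℂ] (Q →+ ℂ))

omit G in
theorem realisesG_diag_iff (T : Module.End ℂ W) (u : Module.End ℤ Q) :
    RealisesG (P : (W × W) →+ (Q →+ ℂ)) (diagEnd W) T u ↔ Realises P T u := Iff.rfl

/-- **The action on forms**, pair version (`P : S × S → Hom(Q, ℂ)` as in the gateway): only
injectivity of `P` and realisation of the generators are needed. -/
noncomputable def toFormsPair (hP : Function.Injective P)
    (hgen : ∀ a ∈ G.gens, ∃ T : Module.End ℂ W, Realises P T a) : G.TT →+* Module.End ℂ W :=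
  G.toFormsG (P := (P : (W × W) →+ (Q →+ ℂ))) (δ := diagEnd W) hP diagEnd_injective hgen

theorem realises_toFormsPair (hP : Function.Injective P)
    (hgen : ∀ a ∈ G.gens, ∃ T : Module.End ℂ W, Realises P T a) (t : G.TT) :
    Realises P (G.toFormsPair P hP hgen t) (G.incl t) :=
  G.toFormsG_spec (P := (P : (W × W) →+ (Q →+ ℂ))) (δ := diagEnd W) hP diagEnd_injective hgen t

theorem toFormsPair_eq (hP : Function.Injective P)
    (hgen : ∀ a ∈ G.gens, ∃ T : Module.End ℂ W, Realises P T a) (t : G.TT)
    {T : Module.End ℂ W} (hT : Realises P T (G.incl t)) : G.toFormsPair P hP hgen t = T :=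
  G.toFormsG_eq (P := (P : (W × W) →+ (Q →+ ℂ))) (δ := diagEnd W) hP diagEnd_injective hgen t hT

theorem toFormsPair_gen (hP : Function.Injective P)
    (hgen : ∀ a ∈ G.gens, ∃ T : Module.End ℂ W, Realises P T a) (a : Module.End ℤ Q)
    (ha : a ∈ G.gens) {T : Module.End ℂ W} (hT : Realises P T a) :
    G.toFormsPair P hP hgen (G.gen a ha) = T :=
  G.toFormsPair_eq P hP hgen _ hT

end Pair

end CommGens

/-! ### The occurrence lemma -/

/-- **Occurrence lemma**, finite ring version: a proper ideal of a finite commutative ring kills a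
nonzero element of every faithful module. -/
theorem exists_ne_zero_forall_mem_smul_eq_zero {R X : Type*} [CommRing R] [Finite R]
    [AddCommGroup X] [Module R X] (hfaith : ∀ r : R, (∀ x : X, r • x = 0) → r = 0)
    (m : Ideal R) (hm : m ≠ ⊤) : ∃ x : X, x ≠ 0 ∧ ∀ t ∈ m, t • x = 0 := by
  classical
  -- the powers of `m` stabilise
  let f : ℕ →o (Ideal R)ᵒᵈ :=
    { toFun := fun j => OrderDual.toDual (m ^ j)
      monotone' := fun i j hij => Ideal.pow_le_pow_right hij }
  obtain ⟨n, hn⟩ := IsArtinian.monotone_stabilizes f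
  have hn' : ∀ j, n ≤ j → m ^ n = m ^ j := fun j hj => congrArg OrderDual.ofDual (hn j hj)
  set J : Ideal R := m ^ (n + 1) with hJ
  have hJm : J ≤ m := Ideal.pow_le_self (Nat.succ_ne_zero n)
  have hJidem : IsIdempotentElem J := by
    show J * J = J
    rw [hJ, ← pow_add, ← hn' (n + 1) (Nat.le_succ n), ← hn' (n + 1 + (n + 1)) (by omega)]
  obtain ⟨e, he, hJe⟩ := (Ideal.isIdempotentElem_iff_of_fg J (IsNoetherian.noetherian J)).mp hJidem
  have hem : e ∈ m := hJm (hJe ▸ Ideal.mem_span_singleton_self e)
  have he1 : (1 : R) - e ≠ 0 := by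
    intro h
    apply hm
    rw [Ideal.eq_top_iff_one]
    rw [sub_eq_zero] at h
    rw [h]
    exact hem
  have hex : ∃ x : X, (1 - e) • x ≠ 0 := by
    by_contra hcon
    push Not at hcon
    exact he1 (hfaith _ hcon)
  obtain ⟨x, hx⟩ := hex
  set x0 : X := (1 - e) • x with hx0
  have hkill : ∀ y ∈ J, y • x0 = 0 := by
    intro y hy
    rw [hJe, Ideal.mem_span_singleton'] at hy
    obtain ⟨c, rfl⟩ := hy
    rw [hx0, smul_smul]
    have : c * e * (1 - e) = 0 := by
      rw [mul_assoc, mul_sub, mul_one, he.eq, sub_self, mul_zero]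
    rw [this, zero_smul]
  -- minimal exponent killing x0
  have hex2 : ∃ j : ℕ, ∀ y ∈ m ^ j, y • x0 = 0 := ⟨n + 1, hkill⟩
  set j := Nat.find hex2 with hj
  have hjspec := Nat.find_spec hex2
  have hj0 : j ≠ 0 := by
    intro h0
    have := hjspec
    rw [← hj, h0, pow_zero] at this
    have h1 := this 1 (by rw [Ideal.one_eq_top]; exact Submodule.mem_top)
    rw [one_smul] at h1
    exact hx h1
  obtain ⟨i, hi⟩ := Nat.exists_eq_succ_of_ne_zero hj0
  have hnot : ¬ ∀ y ∈ m ^ i, y • x0 = 0 := Nat.find_min hex2 (by rw [← hj, hi]; exact Nat.lt_succ_self i)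
  push Not at hnot
  obtain ⟨z, hz, hzx⟩ := hnot
  refine ⟨z • x0, hzx, fun t ht => ?_⟩
  rw [smul_smul]
  apply hjspec
  rw [← hj, hi, pow_succ']
  exact Ideal.mul_mem_mul ht hz

/-- **Occurrence lemma**: let a commutative ring `R` act on a finite abelian group `X`, and let
`m` be a proper ideal containing every element acting as zero.  Then `m` kills a nonzero element
of `X`. -/
theorem exists_ne_zero_forall_mem_eq_zero {R X : Type*} [CommRing R] [AddCommGroup X] [Finite X]
    (ρ : R →+* AddMonoid.End X) (m : Ideal R) (hm : m ≠ ⊤) (hann : ∀ y : R, ρ y = 0 → y ∈ m) :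
    ∃ x : X, x ≠ 0 ∧ ∀ t ∈ m, ρ t x = 0 := by
  classical
  let I : Ideal R := RingHom.ker ρ
  let ρ' : R ⧸ I →+* AddMonoid.End X := RingHom.kerLift ρ
  have hρ' : Function.Injective ρ' := RingHom.kerLift_injective ρ
  have : Finite (AddMonoid.End X) := DFunLike.finite (X →+ X)
  have : Finite (R ⧸ I) := Finite.of_injective ρ' hρ'
  let _ : Module (R ⧸ I) X := Module.compHom X ρ'
  have hsmul : ∀ (r : R ⧸ I) (x : X), r • x = ρ' r x := fun _ _ => rfl
  have hIm : I ≤ m := fun y hy => hann y hy
  set m' : Ideal (R ⧸ I) := m.map (Ideal.Quotient.mk I) with hm'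
  have hm'top : m' ≠ ⊤ := by
    intro htop
    apply hm
    rw [Ideal.eq_top_iff_one] at htop ⊢
    rw [hm', Ideal.mem_map_iff_of_surjective _ Ideal.Quotient.mk_surjective] at htop
    obtain ⟨y, hy, hy1⟩ := htop
    have h1 : (1 : R) - y ∈ I := by
      rw [← Ideal.Quotient.eq_zero_iff_mem, map_sub, map_one, hy1, sub_self]
    have := m.add_mem (hIm h1) hy
    rwa [sub_add_cancel] at this
  have hfaith : ∀ r : R ⧸ I, (∀ x : X, r • x = 0) → r = 0 := by
    intro r hr
    apply hρ'
    rw [map_zero]
    refine AddMonoidHom.ext fun x => ?_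
    exact hr x
  obtain ⟨x, hx0, hx⟩ := exists_ne_zero_forall_mem_smul_eq_zero hfaith m' hm'top
  refine ⟨x, hx0, fun t ht => ?_⟩
  have := hx (Ideal.Quotient.mk I t) (Ideal.mem_map_of_mem _ ht)
  rw [hsmul] at this
  exact this

/-- The occurrence lemma in the shape used with `TorsionHeckeData1.faithful`: if `ρ y = 0` forces
`y ∈ ℓ R`, then every proper ideal containing `ℓ` kills a nonzero element. -/
theorem exists_ne_zero_of_faithful {R X : Type*} [CommRing R] [AddCommGroup X] [Finite X]
    (ρ : R →+* AddMonoid.End X) (ℓ : ℕ)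
    (hfaith : ∀ y : R, ρ y = 0 → ∃ y' : R, y = ((ℓ : ℤ) ^ 1) • y')
    (m : Ideal R) (hm : m ≠ ⊤) (hℓ : (ℓ : R) ∈ m) :
    ∃ x : X, x ≠ 0 ∧ (∀ t ∈ m, ρ t x = 0) ∧ ℓ • x = 0 := by
  obtain ⟨x, hx0, hx⟩ := exists_ne_zero_forall_mem_eq_zero ρ m hm (fun y hy => by
    obtain ⟨y', rfl⟩ := hfaith y hy
    rw [pow_one, zsmul_eq_mul]
    refine m.mul_mem_right _ ?_
    have : ((ℓ : ℤ) : R) = (ℓ : R) := by push_cast; rfl
    rw [this]
    exact hℓ)
  refine ⟨x, hx0, hx, ?_⟩
  have h1 := hx _ hℓ
  rw [map_natCast] at h1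
  rw [← h1, AddMonoid.End.natCast_apply]

/-- The occurrence lemma for a tower `hecke n : R →+* End (Mod n)` which is `ℓ`-adically faithful
in the sense of `TorsionHeckeData1.faithful`. -/
theorem exists_ne_zero_of_faithful_tower {R : Type*} [CommRing R] {Mod : ℕ → Type*}
    [∀ n, AddCommGroup (Mod n)] [∀ n, Finite (Mod n)] (hecke : ∀ n, R →+* AddMonoid.End (Mod n))
    (ℓ : ℕ) {c0 : ℕ}
    (hfaith : ∀ (y : R) (n : ℕ), hecke (n + c0) y = 0 → ∃ y' : R, y = ((ℓ : ℤ) ^ n) • y')
    (m : Ideal R) (hm : m ≠ ⊤) (hℓ : (ℓ : R) ∈ m) :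
    ∃ x : Mod (1 + c0), x ≠ 0 ∧ (∀ t ∈ m, hecke (1 + c0) t x = 0) ∧ ℓ • x = 0 :=
  exists_ne_zero_of_faithful (hecke (1 + c0)) ℓ (fun y hy => hfaith y 1 hy) m hm hℓ

end Fermat.Agent.S48x.Coh.AlgebraAbs
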