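import Fermat.Agent.S48x.Coh.Compare

/-!
# P-S48 block (b1): the Hecke and diamond families for `Γ₁(M)`

* `heckeFam M p` : representatives `[[1, j], [0, p]]` (`j ∈ ℤ/p`) and `σ_p * [[p, 0], [0, 1]]`,
  `σ_p ≡ diag(p⁻¹, p)` modulo `M`; a `RepFamily M p` of level `1`.
* `diamFam M σ` : the one element family `{σ}` for `σ ∈ Γ₀(M)`; a `RepFamily M 1` of level `σ 0 0`.
-/

set_option autoImplicit false

namespace Fermat.Agent.S48x.Coh

open scoped MatrixGroups
open CongruenceSubgroup

section Hecke

variable (M p : ℕ) [hp : Fact p.Prime]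

theorem exists_bezout (hpM : ¬ p ∣ M) : ∃ a b : ℤ, a * p + b * M = 1 := by
  have h : IsCoprime (p : ℤ) (M : ℤ) :=
    Nat.isCoprime_iff_coprime.mpr ((Nat.Prime.coprime_iff_not_dvd hp.out).mpr hpM)
  obtain ⟨a, b, hab⟩ := h
  exact ⟨a, b, hab⟩

/-- The representative at infinity, for Bezout coefficients `a * p + b * M = 1`. -/
def repInf (a b : ℤ) : Matrix (Fin 2) (Fin 2) ℤ := !![a * p, -b; M * p, p]

/-- The finite representatives. -/
def repFin (j : ZMod p) : Matrix (Fin 2) (Fin 2) ℤ := !![1, (j.val : ℤ); 0, p]

/-- All representatives. -/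
def heckeRepZ (a b : ℤ) : Option (ZMod p) → Matrix (Fin 2) (Fin 2) ℤ
  | none => repInf M p a b
  | some j => repFin p j

instance : NeZero p := ⟨hp.out.ne_zero⟩

theorem not_dvd_one : ¬ (p : ℤ) ∣ 1 := by
  intro h
  have := Int.le_of_dvd one_pos h
  have h2 := hp.out.two_le
  omega

theorem cast_val_int (j : ZMod p) : (((j.val : ℕ) : ℤ) : ZMod p) = j := by
  push_cast
  exact ZMod.natCast_zmod_val j

/-- The Hecke family of level `M` at a prime `p ∤ M`. -/
def heckeFamOf {a b : ℤ} (hab : a * p + b * M = 1) : RepFamily M p where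
  X := Option (ZMod p)
  rep := heckeRepZ M p a b
  det_eq x := by
    cases x with
    | none =>
      show (repInf M p a b).det = p
      rw [repInf, Matrix.det_fin_two_of]
      linear_combination (p : ℤ) * hab
    | some j =>
      show (repFin p j).det = p
      rw [repFin, Matrix.det_fin_two_of]
      ring
  lvl := 1
  isLvl x := by
    cases x with
    | none =>
      constructor
      · show (M : ℤ) ∣ (repInf M p a b) 1 0
        simp [repInf]
      · show (M : ℤ) ∣ (repInf M p a b) 0 0 - 1
        simp only [repInf, Matrix.of_apply, Matrix.cons_val', Matrix.cons_val_zero,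
          Matrix.cons_val_fin_one]
        exact ⟨-b, by linear_combination hab⟩
    | some j =>
      constructor
      · show (M : ℤ) ∣ (repFin p j) 1 0
        simp [repFin]
      · show (M : ℤ) ∣ (repFin p j) 0 0 - 1
        simp [repFin]
  rdiv A hA := by
    have hdet : A.det = A 0 0 * A 1 1 - A 0 1 * A 1 0 := Matrix.det_fin_two A
    by_cases h : (p : ℤ) ∣ A 0 0 ∧ (p : ℤ) ∣ A 1 0
    · obtain ⟨a', ha'⟩ := h.1
      obtain ⟨c', hc'⟩ := h.2
      refine ⟨none, !![a' * p - A 0 1 * M, a' * b + A 0 1 * a;
        c' * p - A 1 1 * M, c' * b + A 1 1 * a], ?_⟩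
      show A = _ * repInf M p a b
      ext i j
      fin_cases i <;> fin_cases j <;>
        simp only [repInf, Matrix.mul_apply, Fin.sum_univ_two, Matrix.of_apply,
          Matrix.cons_val', Matrix.cons_val_zero, Matrix.cons_val_one, Matrix.cons_val_fin_one,
          Fin.zero_eta, Fin.mk_one, Fin.isValue]
      · linear_combination ha' - a' * p * hab
      · linear_combination (-(A 0 1)) * hab
      · linear_combination hc' - c' * p * hab
      · linear_combination (-(A 1 1)) * hab
    · -- find `j`
      have hdetp : ((A 0 0 : ℤ) : ZMod p) * ((A 1 1 : ℤ) : ZMod p) -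
          ((A 0 1 : ℤ) : ZMod p) * ((A 1 0 : ℤ) : ZMod p) = 0 := by
        have := (ZMod.intCast_zmod_eq_zero_iff_dvd _ p).mpr hA
        rw [hdet] at this
        push_cast at this
        exact this
      have hj : ∃ j : ZMod p, ((A 0 1 : ℤ) : ZMod p) - j * ((A 0 0 : ℤ) : ZMod p) = 0 ∧
          ((A 1 1 : ℤ) : ZMod p) - j * ((A 1 0 : ℤ) : ZMod p) = 0 := by
        by_cases ha : ((A 0 0 : ℤ) : ZMod p) = 0
        · have hc : ((A 1 0 : ℤ) : ZMod p) ≠ 0 := by
            intro hc
            exact h ⟨(ZMod.intCast_zmod_eq_zero_iff_dvd _ p).mp ha,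
              (ZMod.intCast_zmod_eq_zero_iff_dvd _ p).mp hc⟩
          refine ⟨((A 1 1 : ℤ) : ZMod p) / ((A 1 0 : ℤ) : ZMod p), ?_, ?_⟩
          · rw [ha, mul_zero, sub_zero]
            rw [ha, zero_mul, zero_sub, neg_eq_zero] at hdetp
            exact (mul_eq_zero.mp hdetp).resolve_right hc
          · rw [div_mul_cancel₀ _ hc, sub_self]
        · refine ⟨((A 0 1 : ℤ) : ZMod p) / ((A 0 0 : ℤ) : ZMod p), ?_, ?_⟩
          · rw [div_mul_cancel₀ _ ha, sub_self]
          · field_simp
            linear_combination hdetp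
      obtain ⟨j, hj1, hj2⟩ := hj
      have h1 : (p : ℤ) ∣ A 0 1 - (j.val : ℤ) * A 0 0 := by
        apply (ZMod.intCast_zmod_eq_zero_iff_dvd _ p).mp
        push_cast
        rw [ZMod.natCast_zmod_val]
        exact hj1
      have h2 : (p : ℤ) ∣ A 1 1 - (j.val : ℤ) * A 1 0 := by
        apply (ZMod.intCast_zmod_eq_zero_iff_dvd _ p).mp
        push_cast
        rw [ZMod.natCast_zmod_val]
        exact hj2
      obtain ⟨e₁, he₁⟩ := h1
      obtain ⟨e₂, he₂⟩ := h2
      refine ⟨some j, !![A 0 0, e₁; A 1 0, e₂], ?_⟩
      show A = _ * repFin p j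
      ext i k
      fin_cases i <;> fin_cases k <;>
        simp only [repFin, Matrix.mul_apply, Fin.sum_univ_two, Matrix.of_apply,
          Matrix.cons_val', Matrix.cons_val_zero, Matrix.cons_val_one, Matrix.cons_val_fin_one,
          Fin.zero_eta, Fin.mk_one, Fin.isValue]
      · ring
      · linear_combination he₁
      · ring
      · linear_combination he₂
  sinj x y U h := by
    cases x with
    | none =>
      cases y with
      | none => rfl
      | some j =>
        exfalso
        have h00 := congrFun (congrFun h 0) 0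
        have h01 := congrFun (congrFun h 0) 1
        simp only [heckeRepZ, repInf, repFin, Matrix.mul_apply, Fin.sum_univ_two, Matrix.of_apply,
          Matrix.cons_val', Matrix.cons_val_zero, Matrix.cons_val_one, Matrix.cons_val_fin_one,
          Fin.isValue] at h00 h01
        apply not_dvd_one p
        refine ⟨a + (a * (j.val : ℤ) + U 0 1) * (-M), ?_⟩
        have hb : b = -(a * p * (j.val : ℤ) + U 0 1 * p) := by
          have : U 0 0 = a * p := by linarith
          rw [this] at h01
          linarith
        rw [hb] at hab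
        linear_combination (-1 : ℤ) * hab
    | some j =>
      cases y with
      | none =>
        exfalso
        have h00 := congrFun (congrFun h 0) 0
        simp only [heckeRepZ, repInf, repFin, Matrix.mul_apply, Fin.sum_univ_two, Matrix.of_apply,
          Matrix.cons_val', Matrix.cons_val_zero, Matrix.cons_val_one, Matrix.cons_val_fin_one,
          Fin.isValue] at h00
        apply not_dvd_one p
        exact ⟨U 0 0 * a + U 0 1 * M, by linear_combination h00⟩
      | some j' =>
        have h00 := congrFun (congrFun h 0) 0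
        have h01 := congrFun (congrFun h 0) 1
        simp only [heckeRepZ, repFin, Matrix.mul_apply, Fin.sum_univ_two, Matrix.of_apply,
          Matrix.cons_val', Matrix.cons_val_zero, Matrix.cons_val_one, Matrix.cons_val_fin_one,
          Fin.isValue] at h00 h01
        have hU : U 0 0 = 1 := by linarith
        rw [hU] at h01
        have hc := congrArg (Int.cast : ℤ → ZMod p) h01
        push_cast at hc
        rw [ZMod.natCast_zmod_val, ZMod.natCast_zmod_val] at hc
        simp at hc
        rw [hc]

end Hecke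

section Diamond

variable (M : ℕ)

/-- The one element family `{σ}` for `σ ∈ Γ₀(M)`. -/
def diamFam (σ : SL(2, ℤ)) (hσ : (M : ℤ) ∣ σ 1 0) : RepFamily M 1 where
  X := Unit
  rep _ := slMat σ
  det_eq _ := by
    rw [show (slMat σ).det = 1 from σ.2]
    rfl
  lvl := σ 0 0
  isLvl _ := ⟨hσ, by simp [slMat]⟩
  rdiv A _ := ⟨(), A * (slMat σ).adjugate, by
    rw [Matrix.mul_assoc, Matrix.adjugate_mul, show (slMat σ).det = 1 from σ.2, one_smul,
      Matrix.mul_one]⟩
  sinj _ _ _ _ := rfl

end Diamond

end Fermat.Agent.S48x.Coh
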