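import Fermat.Agent.S48x.Coh.Generic
import Fermat.Agent.S48x.Coh.Families
import Fermat.Agent.S48x.G1.Hecke.Coh1

/-!
# P-S48 block (b1): the operators of `G1/Hecke/Coh1.lean` as coset systems; commutativity

helper4's `heckeHom1 hpM t A` (`t : Twist M p`) and `diamHom τ A` on `Hom(±Γ₁(M), A)` are the
operators of the coset systems `twistSys hpM t` and `diamSys τ`, which are modelled on the
representative families `twistFam hpM t` (determinant `p`, level `1`) and `diamFam M τ`
(determinant `1`, level `τ 0 0`).  Hence, for ALL coefficient groups `A`: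

* `heckeHom1_eq` : `heckeHom1` does not depend on the twist;
* `heckeHom1_comm`, `heckeHom1_diamHom_comm`, `diamHom_comm` : everything commutes;
* `diamHom_eq_of_lr`, `diamHom_eq_of_lr_neg` : `diamHom τ` only depends on `± lr τ`;
* `diamHom_mul`, `diamHom_one`.
-/

set_option autoImplicit false
set_option linter.unusedSectionVars false

namespace Fermat.Agent.S48x.Coh

open P2MW.S_ModularForm_heckeT_slash_eq_self_of_mem_Gamma0.ModularForm.HeckeSlashInvariance
open CongruenceSubgroup Matrix.SpecialLinearGroup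
open Fermat.Agent.Gateway.HeckeCoh
open Fermat.Agent.Gateway.A2 Fermat.Agent.Gateway.A2.Count
open Fermat.Agent.S48x.Nebentypus (sRep sRep_infty sRep_coe sRep_mem upperLeft_mul_lowerRight)
open Fermat.Agent.S41.Ihara (repInt repInt_infty repInt_coe coc_int)
open Fermat.Agent.S48x.G1
open scoped MatrixGroups

section Twist

variable {M p : ℕ} [NeZero M] [Fact p.Prime] (hpM : ¬ p ∣ M) (t : Twist M p)

/-- The integer representatives of the twisted Hecke system. -/
def twistRep (x : OnePoint (ZMod p)) : Matrix (Fin 2) (Fin 2) ℤ :=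
  slMat (sRep p t.σ x) * repInt p x

theorem det_repInt (x : OnePoint (ZMod p)) : (repInt p x).det = p := by
  induction x using OnePoint.rec with
  | infty => rw [repInt_infty, Matrix.det_fin_two_of]; ring
  | coe j => rw [repInt_coe, Matrix.det_fin_two_of]; ring

theorem det_twistRep (x : OnePoint (ZMod p)) : (twistRep t x).det = p := by
  rw [twistRep, Matrix.det_mul, show (slMat (sRep p t.σ x)).det = 1 from (sRep p t.σ x).2, one_mul,
    det_repInt]

/-- The Bezout element of `Γ₀(M)` with lower right entry `p`. -/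
def bezoutSL {a b : ℤ} (hab : a * p + b * M = 1) : SL(2, ℤ) :=
  ⟨!![a, -b; (M : ℤ), (p : ℤ)], by rw [Matrix.det_fin_two_of]; linarith⟩

theorem heckeRepZ_eq {a b : ℤ} (hab : a * p + b * M = 1) (x : OnePoint (ZMod p)) :
    heckeRepZ M p a b x = slMat (sRep p (bezoutSL hab) x) * repInt p x := by
  induction x using OnePoint.rec with
  | infty =>
    rw [sRep_infty, repInt_infty]
    show repInf M p a b = _
    ext i j
    fin_cases i <;> fin_cases j <;> simp [repInf, bezoutSL, slMat, Matrix.mul_apply,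
      Fin.sum_univ_two]
  | coe j =>
    rw [sRep_coe, repInt_coe]
    show repFin p j = _
    rw [slMat, Matrix.SpecialLinearGroup.coe_one, Matrix.one_mul]
    rfl

/-- The twisted representatives differ from the Bezout ones by elements of `SL(2, ℤ)`. -/
theorem twistRep_eq {a b : ℤ} (hab : a * p + b * M = 1) (x : OnePoint (ZMod p)) :
    twistRep t x =
      slMat (sRep p t.σ x * (sRep p (bezoutSL hab) x)⁻¹) * heckeRepZ M p a b x := by
  rw [heckeRepZ_eq hab, twistRep, ← Matrix.mul_assoc, slMat, slMat,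
    ← Matrix.SpecialLinearGroup.coe_mul, inv_mul_cancel_right]

theorem heckeRepZ_eq_twistRep {a b : ℤ} (hab : a * p + b * M = 1) (x : OnePoint (ZMod p)) :
    heckeRepZ M p a b x =
      slMat (sRep p (bezoutSL hab) x * (sRep p t.σ x)⁻¹) * twistRep t x := by
  rw [heckeRepZ_eq hab, twistRep, ← Matrix.mul_assoc, slMat, slMat,
    ← Matrix.SpecialLinearGroup.coe_mul, inv_mul_cancel_right]

include hpM in
theorem twistRep_rdiv (A : Matrix (Fin 2) (Fin 2) ℤ) (hA : (p : ℤ) ∣ A.det) :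
    ∃ (x : OnePoint (ZMod p)) (B : Matrix (Fin 2) (Fin 2) ℤ), A = B * twistRep t x := by
  obtain ⟨a, b, hab⟩ := exists_bezout M p hpM
  obtain ⟨x, B, hB⟩ := (heckeFamOf M p hab).rdiv A hA
  refine ⟨x, B * slMat (sRep p (bezoutSL hab) x * (sRep p t.σ x)⁻¹), ?_⟩
  rw [Matrix.mul_assoc, ← heckeRepZ_eq_twistRep t hab]
  exact hB

include hpM in
theorem twistRep_sinj (x y : OnePoint (ZMod p)) (U : Matrix (Fin 2) (Fin 2) ℤ)
    (h : twistRep t x = U * twistRep t y) : x = y := by
  obtain ⟨a, b, hab⟩ := exists_bezout M p hpM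
  refine (heckeFamOf M p hab).sinj x y
    (slMat (sRep p (bezoutSL hab) x * (sRep p t.σ x)⁻¹) * U *
      slMat (sRep p t.σ y * (sRep p (bezoutSL hab) y)⁻¹)) ?_
  show heckeRepZ M p a b x = _ * heckeRepZ M p a b y
  rw [heckeRepZ_eq_twistRep t hab x, h, twistRep_eq t hab y]
  simp only [Matrix.mul_assoc]

theorem twistRep_isLvl (x : OnePoint (ZMod p)) : IsLvl M 1 (twistRep t x) := by
  induction x using OnePoint.rec with
  | infty =>
    have h10 : (M : ℤ) ∣ t.σ 1 0 :=
      (ZMod.intCast_zmod_eq_zero_iff_dvd _ _).mp (Gamma0_mem.mp t.mem)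
    have h00 : (M : ℤ) ∣ t.σ 0 0 * p - 1 := by
      apply (ZMod.intCast_zmod_eq_zero_iff_dvd _ _).mp
      have h1 := upperLeft_mul_lowerRight t.mem
      have h2 : ((t.σ 1 1 : ℤ) : ZMod M) = (p : ZMod M) := t.lr_eq
      push_cast
      rw [← h2, h1, sub_self]
    rw [twistRep, sRep_infty, repInt_infty]
    constructor
    · obtain ⟨c, hc⟩ := h10
      refine ⟨c * p, ?_⟩
      simp [slMat, Matrix.mul_apply, Fin.sum_univ_two, hc]
      ring
    · obtain ⟨c, hc⟩ := h00
      refine ⟨c, ?_⟩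
      simp [slMat, Matrix.mul_apply, Fin.sum_univ_two]
      linarith
  | coe j =>
    rw [twistRep, sRep_coe, repInt_coe, slMat, Matrix.SpecialLinearGroup.coe_one, Matrix.one_mul]
    constructor <;> simp

/-- The representative family of the twisted Hecke system: determinant `p`, level `1`. -/
def twistFam : RepFamily M p where
  X := OnePoint (ZMod p)
  rep := twistRep t
  det_eq := det_twistRep t
  lvl := 1
  isLvl := twistRep_isLvl t
  rdiv := twistRep_rdiv hpM t
  sinj := twistRep_sinj hpM t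

/-- helper4's twisted Hecke data as a coset system for `±Γ₁(M)`. -/
noncomputable def twistSys : CosetSys (Gamma1pm M) where
  X := OnePoint (ZMod p)
  rep := twistRep t
  det_ne x := by
    rw [det_twistRep]
    exact_mod_cast (Fact.out : p.Prime).ne_zero
  act γ x := redMatrix p (γ : SL(2, ℤ)) • x
  act_one x := by rw [OneMemClass.coe_one, redMatrix_one, one_smul]
  act_mul γ δ x := by rw [Subgroup.coe_mul, redMatrix_mul, mul_smul]
  coc x γ := coc1 hpM t x γ
  spec x γ := by
    have h := coc_int M p hpM x (toGamma0 γ)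
    rw [toGamma0_coe] at h
    show slMat (sRep p t.σ x) * repInt p x * slMat (γ : SL(2, ℤ)) =
      slMat ((coc1 hpM t x γ : Gamma1pm M) : SL(2, ℤ)) *
        (slMat (sRep p t.σ (redMatrix p (γ : SL(2, ℤ)) • x)) *
          repInt p (redMatrix p (γ : SL(2, ℤ)) • x))
    rw [Matrix.mul_assoc, show repInt p x * slMat (γ : SL(2, ℤ)) = _ from h, coc1_coe,
      ← Matrix.mul_assoc, ← Matrix.mul_assoc]
    simp only [slMat]
    rw [← Matrix.SpecialLinearGroup.coe_mul, ← Matrix.SpecialLinearGroup.coe_mul,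
      inv_mul_cancel_right]

/-- `twistSys` is modelled on `twistFam`. -/
def twistModel : (twistSys hpM t).Model (twistFam hpM t) where
  e := Equiv.refl _
  rep_eq _ := rfl

theorem heckeHom1_eq_twistSys (A : Type*) [AddCommGroup A] :
    heckeHom1 hpM t A = (twistSys hpM t).heckeHom A := by
  refine AddMonoidHom.ext fun φ => AddMonoidHom.ext fun γ => ?_
  obtain ⟨γ, rfl⟩ := Additive.ofMul.surjective γ
  rw [heckeHom1_apply, CosetSys.heckeHom_apply]
  rfl

end Twist

section Diamond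

variable {M : ℕ} [NeZero M]

/-- The diamond operator of `τ ∈ Γ₀(M)` as a coset system for `±Γ₁(M)`. -/
def diamSys (τ : Gamma0 M) : CosetSys (Gamma1pm M) :=
  conjSys (τ : SL(2, ℤ)) (fun _ hγ => conj_mem_Gamma1pm τ.2 hγ)

theorem dvd_lowerLeft (τ : Gamma0 M) : (M : ℤ) ∣ (τ : SL(2, ℤ)) 1 0 :=
  (ZMod.intCast_zmod_eq_zero_iff_dvd _ _).mp (Gamma0_mem.mp τ.2)

/-- `diamSys` is modelled on `diamFam`. -/
def diamModel (τ : Gamma0 M) : (diamSys τ).Model (diamFam M (τ : SL(2, ℤ)) (dvd_lowerLeft τ)) where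
  e := Equiv.refl _
  rep_eq _ := rfl

theorem diamHom_eq_diamSys (τ : Gamma0 M) (A : Type*) [AddCommGroup A] :
    diamHom τ A = (diamSys τ).heckeHom A := by
  refine AddMonoidHom.ext fun φ => AddMonoidHom.ext fun γ => ?_
  obtain ⟨γ, rfl⟩ := Additive.ofMul.surjective γ
  rw [diamHom_apply, diamSys, conjSys_heckeHom_apply]
  rfl

end Diamond

/-! ### The commutation theorems -/

section Main

variable {M : ℕ} [NeZero M]

theorem coprime_of_not_dvd {p : ℕ} [hp : Fact p.Prime] (hpM : ¬ p ∣ M) : Nat.Coprime p M :=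
  (Nat.Prime.coprime_iff_not_dvd hp.out).mpr hpM

/-- `heckeHom1` does not depend on the twist. -/
theorem heckeHom1_eq {p : ℕ} [Fact p.Prime] (hpM : ¬ p ∣ M) (t t' : Twist M p) (A : Type*)
    [AddCommGroup A] : heckeHom1 hpM t A = heckeHom1 hpM t' A := by
  refine AddMonoidHom.ext fun φ => ?_
  rw [heckeHom1_eq_twistSys, heckeHom1_eq_twistSys]
  exact CosetSys.heckeHom_eq_of_model (Gamma1_le_Gamma1pm M) (twistSys hpM t') (twistSys hpM t)
    (twistModel hpM t') (twistModel hpM t) (Fact.out : p.Prime).ne_zero (coprime_of_not_dvd hpM)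
    (by show (M : ℤ) ∣ (1 : ℤ) - 1; simp) A φ

/-- `T_p` and `T_q` commute on `Hom(±Γ₁(M), A)`. -/
theorem heckeHom1_comm {p q : ℕ} [Fact p.Prime] [Fact q.Prime] (hpM : ¬ p ∣ M) (hqM : ¬ q ∣ M)
    (t : Twist M p) (t' : Twist M q) (A : Type*) [AddCommGroup A]
    (φ : Additive (Gamma1pm M) →+ A) :
    heckeHom1 hpM t A (heckeHom1 hqM t' A φ) = heckeHom1 hqM t' A (heckeHom1 hpM t A φ) := by
  by_cases hpq : p = q
  · subst hpq
    rw [heckeHom1_eq hpM t' t]
  · rw [heckeHom1_eq_twistSys, heckeHom1_eq_twistSys]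
    exact CosetSys.heckeHom_comm_of_model (Gamma1_le_Gamma1pm M) (twistSys hpM t) (twistSys hqM t')
      (twistModel hpM t) (twistModel hqM t') (Fact.out : p.Prime).ne_zero
      (Fact.out : q.Prime).ne_zero (coprime_of_not_dvd hpM) (coprime_of_not_dvd hqM)
      ((Nat.coprime_primes Fact.out Fact.out).mpr hpq) A φ

/-- `T_p` commutes with the diamond operators on `Hom(±Γ₁(M), A)`. -/
theorem heckeHom1_diamHom_comm {p : ℕ} [Fact p.Prime] (hpM : ¬ p ∣ M) (t : Twist M p)
    (τ : Gamma0 M) (A : Type*) [AddCommGroup A] (φ : Additive (Gamma1pm M) →+ A) :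
    heckeHom1 hpM t A (diamHom τ A φ) = diamHom τ A (heckeHom1 hpM t A φ) := by
  rw [heckeHom1_eq_twistSys, diamHom_eq_diamSys]
  exact CosetSys.heckeHom_comm_of_model (Gamma1_le_Gamma1pm M) (twistSys hpM t) (diamSys τ)
    (twistModel hpM t) (diamModel τ) (Fact.out : p.Prime).ne_zero one_ne_zero
    (coprime_of_not_dvd hpM) (Nat.coprime_one_left M) (Nat.coprime_one_right p) A φ

/-- The diamond operators commute on `Hom(±Γ₁(M), A)`. -/
theorem diamHom_comm (τ τ' : Gamma0 M) (A : Type*) [AddCommGroup A]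
    (φ : Additive (Gamma1pm M) →+ A) :
    diamHom τ A (diamHom τ' A φ) = diamHom τ' A (diamHom τ A φ) := by
  rw [diamHom_eq_diamSys, diamHom_eq_diamSys]
  exact CosetSys.heckeHom_comm_of_model (Gamma1_le_Gamma1pm M) (diamSys τ) (diamSys τ')
    (diamModel τ) (diamModel τ') one_ne_zero one_ne_zero (Nat.coprime_one_left M)
    (Nat.coprime_one_left M) (Nat.coprime_one_left 1) A φ

/-- The diamond operator only depends on the lower right entry modulo `M`. -/
theorem diamHom_eq_of_lr (τ τ' : Gamma0 M) (h : lr M (τ : SL(2, ℤ)) = lr M (τ' : SL(2, ℤ)))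
    (A : Type*) [AddCommGroup A] : diamHom τ A = diamHom τ' A := by
  refine AddMonoidHom.ext fun φ => ?_
  rw [diamHom_eq_diamSys, diamHom_eq_diamSys]
  refine CosetSys.heckeHom_eq_of_model (Gamma1_le_Gamma1pm M) (diamSys τ') (diamSys τ)
    (diamModel τ') (diamModel τ) one_ne_zero (Nat.coprime_one_left M) ?_ A φ
  show (M : ℤ) ∣ (τ : SL(2, ℤ)) 0 0 - (τ' : SL(2, ℤ)) 0 0
  apply (ZMod.intCast_zmod_eq_zero_iff_dvd _ _).mp
  have h1 := upperLeft_mul_lowerRight τ.2
  have h2 := upperLeft_mul_lowerRight τ'.2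
  have h3 : (((τ : SL(2, ℤ)) 1 1 : ℤ) : ZMod M) = (((τ' : SL(2, ℤ)) 1 1 : ℤ) : ZMod M) := h
  push_cast
  rw [h3] at h1
  -- `a d = 1`, `a' d = 1`
  have : (((τ : SL(2, ℤ)) 0 0 : ℤ) : ZMod M) = (((τ' : SL(2, ℤ)) 0 0 : ℤ) : ZMod M) := by
    calc (((τ : SL(2, ℤ)) 0 0 : ℤ) : ZMod M)
        = (((τ : SL(2, ℤ)) 0 0 : ℤ) : ZMod M) * ((((τ' : SL(2, ℤ)) 0 0 : ℤ) : ZMod M) *
            (((τ' : SL(2, ℤ)) 1 1 : ℤ) : ZMod M)) := by rw [h2, mul_one]
      _ = (((τ' : SL(2, ℤ)) 0 0 : ℤ) : ZMod M) * ((((τ : SL(2, ℤ)) 0 0 : ℤ) : ZMod M) *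
            (((τ' : SL(2, ℤ)) 1 1 : ℤ) : ZMod M)) := by ring
      _ = (((τ' : SL(2, ℤ)) 0 0 : ℤ) : ZMod M) := by rw [h1, mul_one]
  rw [this, sub_self]

theorem diamHom_mul (τ τ' : Gamma0 M) (A : Type*) [AddCommGroup A]
    (φ : Additive (Gamma1pm M) →+ A) :
    diamHom (τ * τ') A φ = diamHom τ' A (diamHom τ A φ) := by
  refine AddMonoidHom.ext fun γ => ?_
  obtain ⟨γ, rfl⟩ := Additive.ofMul.surjective γ
  rw [diamHom_apply, diamHom_apply, diamHom_apply]
  congr 2
  apply Subtype.ext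
  simp [conjBy_coe, mul_assoc]

theorem diamHom_one (A : Type*) [AddCommGroup A] (φ : Additive (Gamma1pm M) →+ A) :
    diamHom (1 : Gamma0 M) A φ = φ := by
  refine AddMonoidHom.ext fun γ => ?_
  obtain ⟨γ, rfl⟩ := Additive.ofMul.surjective γ
  rw [diamHom_apply]
  congr 2
  apply Subtype.ext
  simp [conjBy_coe]

/-- `-1 ∈ Γ₀(M)`. -/
def negOneGamma0 (M : ℕ) : Gamma0 M := ⟨-1, by rw [Gamma0_mem]; simp⟩

theorem diamHom_neg_one (A : Type*) [AddCommGroup A] (φ : Additive (Gamma1pm M) →+ A) :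
    diamHom (negOneGamma0 M) A φ = φ := by
  refine AddMonoidHom.ext fun γ => ?_
  obtain ⟨γ, rfl⟩ := Additive.ofMul.surjective γ
  rw [diamHom_apply]
  congr 2
  apply Subtype.ext
  simp [conjBy_coe, negOneGamma0]

/-- The diamond operator only depends on the lower right entry modulo `M` up to sign. -/
theorem diamHom_eq_of_lr_neg (τ τ' : Gamma0 M)
    (h : lr M (τ : SL(2, ℤ)) = - lr M (τ' : SL(2, ℤ))) (A : Type*) [AddCommGroup A] :
    diamHom τ A = diamHom τ' A := by
  have h1 : diamHom τ A = diamHom (negOneGamma0 M * τ') A := by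
    apply diamHom_eq_of_lr
    rw [h]
    show - lr M (τ' : SL(2, ℤ)) =
      lr M (((negOneGamma0 M : Gamma0 M) : SL(2, ℤ)) * (τ' : SL(2, ℤ)))
    rw [lr_mul (negOneGamma0 M).2]
    show _ = lr M (-1) * _
    rw [lr_neg_one, neg_one_mul]
  rw [h1]
  refine AddMonoidHom.ext fun φ => ?_
  rw [diamHom_mul, diamHom_neg_one]

end Main

end Fermat.Agent.S48x.Coh
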