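import Fermat.Agent.S48x.Coh.RepFamily

/-!
# P-S48 block (b1): coset systems from complete families; commutativity

* `CosetSys.ofComplete` : a complete family of pairwise inequivalent representatives is a coset
  system.
* `RepFamily.toCosetSys` : the coset system for `Γ₁(M)` of a representative family.
* `RepFamily.heckeHom_comm` : the operators of two families of coprime determinants commute.
-/

set_option autoImplicit false

namespace Fermat.Agent.S48x.Coh

open scoped MatrixGroups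
open CongruenceSubgroup
open Fermat.Agent.Gateway.A2 Fermat.Agent.Gateway.A2.Count

theorem ofComplete_aux_one {Γ : Subgroup SL(2, ℤ)} {X : Type}
    {rep : X → Matrix (Fin 2) (Fin 2) ℤ}
    (hinj : ∀ (x y : X) (g : Γ), rep x = toMat g * rep y → x = y) {x x' : X} {g : Γ}
    (h : rep x * toMat (1 : Γ) = toMat g * rep x') : x' = x := by
  rw [toMat_one, Matrix.mul_one] at h
  exact (hinj _ _ _ h).symm

theorem ofComplete_aux_mul {Γ : Subgroup SL(2, ℤ)} {X : Type}
    {rep : X → Matrix (Fin 2) (Fin 2) ℤ}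
    (hinj : ∀ (x y : X) (g : Γ), rep x = toMat g * rep y → x = y) {x x₁ x₂ x₃ : X}
    {γ δ g₁ g₂ g₃ : Γ} (h1 : rep x * toMat γ = toMat g₁ * rep x₁)
    (h2 : rep x₁ * toMat δ = toMat g₂ * rep x₂)
    (h3 : rep x * toMat (γ * δ) = toMat g₃ * rep x₃) : x₃ = x₂ := by
  rw [toMat_mul, ← Matrix.mul_assoc, h1, Matrix.mul_assoc, h2, ← Matrix.mul_assoc,
    ← toMat_mul] at h3
  exact hinj _ _ _ (eq_toMat_mul_of_mul_eq h3.symm)

/-- A complete family of pairwise left inequivalent representatives defines a coset system. -/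
noncomputable def CosetSys.ofComplete {Γ : Subgroup SL(2, ℤ)} (X : Type) [Fintype X]
    (rep : X → Matrix (Fin 2) (Fin 2) ℤ) (det_ne : ∀ x, (rep x).det ≠ 0)
    (hc : ∀ (x : X) (γ : Γ), ∃ (x' : X) (g : Γ), rep x * toMat γ = toMat g * rep x')
    (hinj : ∀ (x y : X) (g : Γ), rep x = toMat g * rep y → x = y) : CosetSys Γ where
  X := X
  rep := rep
  det_ne := det_ne
  act γ x := (hc x γ).choose
  coc x γ := (hc x γ).choose_spec.choose
  spec x γ := (hc x γ).choose_spec.choose_spec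
  act_one x := ofComplete_aux_one hinj (hc x 1).choose_spec.choose_spec
  act_mul γ δ x := ofComplete_aux_mul hinj (hc x γ).choose_spec.choose_spec
    (hc (hc x γ).choose δ).choose_spec.choose_spec (hc x (γ * δ)).choose_spec.choose_spec

theorem CosetSys.ofComplete_isInj {Γ : Subgroup SL(2, ℤ)} (X : Type) [Fintype X]
    (rep : X → Matrix (Fin 2) (Fin 2) ℤ) (det_ne : ∀ x, (rep x).det ≠ 0)
    (hc : ∀ (x : X) (γ : Γ), ∃ (x' : X) (g : Γ), rep x * toMat γ = toMat g * rep x')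
    (hinj : ∀ (x y : X) (g : Γ), rep x = toMat g * rep y → x = y) :
    (CosetSys.ofComplete X rep det_ne hc hinj).IsInj := hinj

namespace RepFamily

variable {M n : ℕ} (F : RepFamily M n)

/-- The coset system for `Γ₁(M)` of a representative family. -/
noncomputable def toCosetSys (hn : n ≠ 0) (hcop : Nat.Coprime n M) : CosetSys (Gamma1 M) :=
  CosetSys.ofComplete F.X F.rep (F.det_ne hn) (F.complete hn hcop)
    (fun x y g h => F.sinj x y (toMat g) h)

@[simp] theorem toCosetSys_X (hn : n ≠ 0) (hcop : Nat.Coprime n M) :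
    (F.toCosetSys hn hcop).X = F.X := rfl

theorem toCosetSys_rep (hn : n ≠ 0) (hcop : Nat.Coprime n M) (x : F.X) :
    (F.toCosetSys hn hcop).rep x = F.rep x := rfl

theorem toCosetSys_isInj (hn : n ≠ 0) (hcop : Nat.Coprime n M) :
    (F.toCosetSys hn hcop).IsInj :=
  fun x y g h => F.sinj x y (toMat g) h

end RepFamily

section Comm

variable {M n₁ n₂ : ℕ} (F₁ : RepFamily M n₁) (F₂ : RepFamily M n₂)

/-- Strong injectivity of the product family (coprime determinants). -/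
theorem RepFamily.prod_sinj (h₁ : n₁ ≠ 0) (hc : Nat.Coprime n₁ n₂) {x x' : F₁.X} {y y' : F₂.X}
    {U : Matrix (Fin 2) (Fin 2) ℤ}
    (h : F₂.rep y * F₁.rep x = U * (F₂.rep y' * F₁.rep x')) : x = x' ∧ y = y' := by
  set T := F₂.rep y
  set R := F₁.rep x
  set T' := F₂.rep y'
  set R' := F₁.rep x'
  have hn₁ : (n₁ : ℤ) ≠ 0 := by exact_mod_cast h₁
  -- Step 1
  have s1 : T * (R * R'.adjugate) = (n₁ : ℤ) • (U * T') := by
    rw [← Matrix.mul_assoc, h, Matrix.mul_assoc, Matrix.mul_assoc, Matrix.mul_adjugate,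
      F₁.det_eq, Matrix.mul_smul, Matrix.mul_smul, Matrix.mul_one]
  -- Step 2
  have s2 : (n₂ : ℤ) • (R * R'.adjugate) = (n₁ : ℤ) • (T.adjugate * (U * T')) := by
    have : T.adjugate * (T * (R * R'.adjugate)) = T.adjugate * ((n₁ : ℤ) • (U * T')) := by
      rw [s1]
    rw [← Matrix.mul_assoc, Matrix.adjugate_mul, F₂.det_eq, Matrix.smul_mul, Matrix.one_mul,
      Matrix.mul_smul] at this
    exact this
  -- Step 3
  have s3 : ∀ i j, (n₁ : ℤ) ∣ (R * R'.adjugate) i j := by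
    intro i j
    have hij := congrFun (congrFun s2 i) j
    simp only [Matrix.smul_apply, smul_eq_mul] at hij
    have hcop : IsCoprime (n₁ : ℤ) (n₂ : ℤ) := Nat.isCoprime_iff_coprime.mpr hc
    exact hcop.dvd_of_dvd_mul_left ⟨_, hij⟩
  choose V hV using s3
  have hV' : R * R'.adjugate = (n₁ : ℤ) • (Matrix.of V) := by
    ext i j
    rw [hV i j]
    simp
  -- Step 4
  have s4 : Matrix.of V * R' = R := by
    have h4 : (n₁ : ℤ) • (Matrix.of V * R') = (n₁ : ℤ) • R := by
      rw [← Matrix.smul_mul, ← hV', Matrix.mul_assoc, Matrix.adjugate_mul, F₁.det_eq,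
        Matrix.mul_smul, Matrix.mul_one]
    exact smul_right_injective _ hn₁ h4
  have hx : x = x' := F₁.sinj x x' _ s4.symm
  subst hx
  refine ⟨rfl, ?_⟩
  have h5 : T = U * T' := by
    apply mat_cancel_right (F₁.det_ne h₁ x)
    rw [Matrix.mul_assoc]
    exact h
  exact F₂.sinj y y' U h5

/-- Existence of the swapped factorisation. -/
theorem RepFamily.exists_swap (h₁ : n₁ ≠ 0) (h₂ : n₂ ≠ 0) (hc₁ : Nat.Coprime n₁ M)
    (hc₂ : Nat.Coprime n₂ M) (x : F₁.X) (y : F₂.X) :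
    ∃ (y' : F₂.X) (x' : F₁.X) (g : Gamma1 M),
      F₁.rep x' * F₂.rep y' = toMat g * (F₂.rep y * F₁.rep x) := by
  set A := F₂.rep y * F₁.rep x with hA
  have hn₁ : (n₁ : ℤ) ≠ 0 := by exact_mod_cast h₁
  have hn₂ : (n₂ : ℤ) ≠ 0 := by exact_mod_cast h₂
  have hdetA : A.det = n₂ * n₁ := by rw [hA, Matrix.det_mul, F₂.det_eq, F₁.det_eq]
  obtain ⟨y', B, hB⟩ := F₂.rdiv A (by rw [hdetA]; exact dvd_mul_right _ _)
  have hdetB : B.det = n₁ := by
    have h := congrArg Matrix.det hB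
    rw [hdetA, Matrix.det_mul, F₂.det_eq, mul_comm B.det] at h
    exact (mul_left_cancel₀ hn₂ h).symm
  obtain ⟨x', B', hB'⟩ := F₁.rdiv B (by rw [hdetB])
  have hdetB' : B'.det = 1 := by
    have h := congrArg Matrix.det hB'
    rw [hdetB, Matrix.det_mul, F₁.det_eq] at h
    have : (n₁ : ℤ) * 1 = n₁ * B'.det := by rw [mul_one, mul_comm]; exact h
    exact (mul_left_cancel₀ hn₁ this).symm
  have hfac : B' * (F₁.rep x' * F₂.rep y') = A := by
    rw [← Matrix.mul_assoc, ← hB', ← hB]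
  have hInU : InU M B' := by
    refine inU_of_mul_eq hfac (((F₁.isLvl x').mul (F₂.isLvl y')).levelRel
      ((F₂.isLvl y).mul (F₁.isLvl x)) ⟨0, by ring⟩) ?_
    · rw [Matrix.det_mul, F₁.det_eq, F₂.det_eq]
      have : IsCoprime ((n₁ * n₂ : ℕ) : ℤ) (M : ℤ) :=
        Nat.isCoprime_iff_coprime.mpr (Nat.Coprime.mul_left hc₁ hc₂)
      simpa using this
  obtain ⟨g, hg⟩ := exists_gamma1_of_inU hdetB' hInU
  refine ⟨y', x', g⁻¹, ?_⟩
  rw [← hfac, ← hg, ← Matrix.mul_assoc, toMat_inv_mul, Matrix.one_mul]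

/-- **Commutativity** of the operators of two representative families of coprime
determinants. -/
theorem RepFamily.heckeHom_comm (h₁ : n₁ ≠ 0) (h₂ : n₂ ≠ 0) (hc₁ : Nat.Coprime n₁ M)
    (hc₂ : Nat.Coprime n₂ M) (hc : Nat.Coprime n₁ n₂) (A : Type*) [AddCommGroup A]
    (φ : Additive (Gamma1 M) →+ A) :
    (F₁.toCosetSys h₁ hc₁).heckeHom A ((F₂.toCosetSys h₂ hc₂).heckeHom A φ) =
      (F₂.toCosetSys h₂ hc₂).heckeHom A ((F₁.toCosetSys h₁ hc₁).heckeHom A φ) := by
  set S₁ := F₁.toCosetSys h₁ hc₁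
  set S₂ := F₂.toCosetSys h₂ hc₂
  rw [← CosetSys.heckeHom_comp_sys, ← CosetSys.heckeHom_comp_sys]
  -- data of the swap
  have hex : ∀ a : F₁.X × F₂.X, ∃ (b : F₂.X × F₁.X) (g : Gamma1 M),
      F₁.rep b.2 * F₂.rep b.1 = toMat g * (F₂.rep a.2 * F₁.rep a.1) := by
    rintro ⟨x, y⟩
    obtain ⟨y', x', g, hg⟩ := RepFamily.exists_swap F₁ F₂ h₁ h₂ hc₁ hc₂ x y
    exact ⟨(y', x'), g, hg⟩
  choose e₀ u hu using hex
  have hinj : Function.Injective e₀ := by
    intro a b hab
    have ha := hu a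
    have hb := hu b
    rw [hab] at ha
    rw [hb] at ha
    -- `toMat (u b) * rep b = toMat (u a) * rep a`
    have h3 := eq_toMat_mul_of_mul_eq ha.symm
    obtain ⟨hx, hy⟩ := RepFamily.prod_sinj F₁ F₂ h₁ hc h3
    exact Prod.ext hx hy
  have hcard : Fintype.card (F₁.X × F₂.X) = Fintype.card (F₂.X × F₁.X) := by
    rw [Fintype.card_prod, Fintype.card_prod, mul_comm]
  have hbij : Function.Bijective e₀ :=
    (Fintype.bijective_iff_injective_and_card e₀).mpr ⟨hinj, hcard⟩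
  let e : (S₁.comp S₂).X ≃ (S₂.comp S₁).X := Equiv.ofBijective e₀ hbij
  have hS' : (S₂.comp S₁).IsInj := by
    rintro ⟨y, x⟩ ⟨y', x'⟩ g h
    have := RepFamily.prod_sinj F₂ F₁ h₂ hc.symm (U := toMat g) h
    exact Prod.ext this.1 this.2
  exact (CosetSys.heckeHom_eq_of_equiv_of_isInj (S₁.comp S₂) (S₂.comp S₁) hS' e u
    (fun a => hu a) A φ).symm

end Comm

end Fermat.Agent.S48x.Coh
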