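import Fermat.Agent.S48x.Coh.Commute

/-!
# P-S48 block (b1): comparison of a coset system with a representative family

* `RepFamily.heckeHom_eq_of_sys` : a strongly injective coset system for `Γ₁(M)` all of whose
  representatives have determinant `n` and level `≡ F.lvl`, and which right-divides every
  representative of `F`, induces the same operator as `F`.
* `RepFamily.heckeHom_eq_of_lvl` : independence of the choice of the family.
* `RepFamily.heckeHom_mul` : multiplicativity for coprime determinants.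
-/

set_option autoImplicit false

namespace Fermat.Agent.S48x.Coh

open scoped MatrixGroups
open CongruenceSubgroup
open Fermat.Agent.Gateway.A2 Fermat.Agent.Gateway.A2.Count

variable {M n : ℕ}

theorem RepFamily.heckeHom_eq_of_sys (F : RepFamily M n) (hn : n ≠ 0) (hcop : Nat.Coprime n M)
    (S : CosetSys (Gamma1 M))
    (hsinj : ∀ (a b : S.X) (U : Matrix (Fin 2) (Fin 2) ℤ), S.rep a = U * S.rep b → a = b)
    (hdet : ∀ a, (S.rep a).det = n) (c : ℤ) (hlvl : ∀ a, IsLvl M c (S.rep a))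
    (hc : (M : ℤ) ∣ c - F.lvl)
    (hdiv : ∀ z : F.X, ∃ (a : S.X) (B : Matrix (Fin 2) (Fin 2) ℤ), F.rep z = B * S.rep a)
    (A : Type*) [AddCommGroup A] (φ : Additive (Gamma1 M) →+ A) :
    (F.toCosetSys hn hcop).heckeHom A φ = S.heckeHom A φ := by
  have hn' : (n : ℤ) ≠ 0 := by exact_mod_cast hn
  have hex : ∀ a : S.X, ∃ (z : F.X) (g : Gamma1 M), F.rep z = toMat g * S.rep a := by
    intro a
    obtain ⟨z, B, hB⟩ := F.rdiv (S.rep a) (by rw [hdet a])
    have hdetB : B.det = 1 := by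
      have h := congrArg Matrix.det hB
      rw [hdet a, Matrix.det_mul, F.det_eq] at h
      have : (n : ℤ) * 1 = n * B.det := by rw [mul_one, mul_comm]; exact h
      exact (mul_left_cancel₀ hn' this).symm
    have hInU : InU M B := by
      refine inU_of_mul_eq hB.symm ((F.isLvl z).levelRel (hlvl a) hc) ?_
      rw [F.det_eq]
      exact Nat.isCoprime_iff_coprime.mpr hcop
    obtain ⟨g, hg⟩ := exists_gamma1_of_inU hdetB hInU
    refine ⟨z, g⁻¹, ?_⟩
    rw [hB, ← hg, ← Matrix.mul_assoc, toMat_inv_mul, Matrix.one_mul]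
  choose e₀ u hu using hex
  have hinj : Function.Injective e₀ := by
    intro a b hab
    have ha := hu a
    have hb := hu b
    rw [hab, hb] at ha
    exact hsinj a b _ (eq_toMat_mul_of_mul_eq ha.symm)
  have hsurj : Function.Surjective e₀ := by
    intro z
    obtain ⟨a, B, hB⟩ := hdiv z
    refine ⟨a, ?_⟩
    have ha := hu a
    -- `F.rep z = B * S.rep a`, `S.rep a = toMat (u a)⁻¹ * F.rep (e₀ a)`
    have h2 : S.rep a = toMat (u a)⁻¹ * F.rep (e₀ a) := by
      rw [ha, ← Matrix.mul_assoc, toMat_inv_mul, Matrix.one_mul]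
    rw [h2, ← Matrix.mul_assoc] at hB
    exact (F.sinj z (e₀ a) _ hB).symm
  let e : S.X ≃ (F.toCosetSys hn hcop).X := Equiv.ofBijective e₀ ⟨hinj, hsurj⟩
  exact CosetSys.heckeHom_eq_of_equiv_of_isInj S (F.toCosetSys hn hcop)
    (F.toCosetSys_isInj hn hcop) e u (fun a => hu a) A φ

/-- Independence of the choice of the family. -/
theorem RepFamily.heckeHom_eq_of_lvl (F F' : RepFamily M n) (hn : n ≠ 0)
    (hcop : Nat.Coprime n M) (hl : (M : ℤ) ∣ F'.lvl - F.lvl)
    (A : Type*) [AddCommGroup A] (φ : Additive (Gamma1 M) →+ A) :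
    (F.toCosetSys hn hcop).heckeHom A φ = (F'.toCosetSys hn hcop).heckeHom A φ :=
  F.heckeHom_eq_of_sys hn hcop (F'.toCosetSys hn hcop) (fun a b U h => F'.sinj a b U h)
    (fun a => F'.det_eq a) F'.lvl (fun a => F'.isLvl a) hl
    (fun z => F'.rdiv (F.rep z) (by rw [F.det_eq])) A φ

/-- Multiplicativity for coprime determinants. -/
theorem RepFamily.heckeHom_mul {n₁ n₂ : ℕ} (F₁ : RepFamily M n₁) (F₂ : RepFamily M n₂)
    (F₃ : RepFamily M (n₁ * n₂)) (h₁ : n₁ ≠ 0) (h₂ : n₂ ≠ 0) (hc₁ : Nat.Coprime n₁ M)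
    (hc₂ : Nat.Coprime n₂ M) (hc : Nat.Coprime n₁ n₂)
    (hl : (M : ℤ) ∣ F₂.lvl * F₁.lvl - F₃.lvl)
    (A : Type*) [AddCommGroup A] (φ : Additive (Gamma1 M) →+ A) :
    (F₃.toCosetSys (mul_ne_zero h₁ h₂) (Nat.Coprime.mul_left hc₁ hc₂)).heckeHom A φ =
      (F₁.toCosetSys h₁ hc₁).heckeHom A ((F₂.toCosetSys h₂ hc₂).heckeHom A φ) := by
  rw [← CosetSys.heckeHom_comp_sys]
  have hn₁ : (n₁ : ℤ) ≠ 0 := by exact_mod_cast h₁
  refine F₃.heckeHom_eq_of_sys _ _ ((F₁.toCosetSys h₁ hc₁).comp (F₂.toCosetSys h₂ hc₂))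
    ?_ ?_ (F₂.lvl * F₁.lvl) ?_ hl ?_ A φ
  · rintro ⟨x, y⟩ ⟨x', y'⟩ U h
    have := RepFamily.prod_sinj F₁ F₂ h₁ hc h
    exact Prod.ext this.1 this.2
  · rintro ⟨x, y⟩
    show (F₂.rep y * F₁.rep x).det = _
    rw [Matrix.det_mul, F₁.det_eq, F₂.det_eq]
    push_cast
    ring
  · rintro ⟨x, y⟩
    exact (F₂.isLvl y).mul (F₁.isLvl x)
  · intro z
    obtain ⟨x, B₁, hB₁⟩ := F₁.rdiv (F₃.rep z) (by
      rw [F₃.det_eq]
      push_cast
      exact dvd_mul_right _ _)
    have hdetB₁ : B₁.det = n₂ := by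
      have h := congrArg Matrix.det hB₁
      rw [F₃.det_eq, Matrix.det_mul, F₁.det_eq] at h
      push_cast at h
      have : (n₁ : ℤ) * n₂ = n₁ * B₁.det := by rw [h]; ring
      exact (mul_left_cancel₀ hn₁ this).symm
    obtain ⟨y, B₂, hB₂⟩ := F₂.rdiv B₁ (by rw [hdetB₁])
    refine ⟨(x, y), B₂, ?_⟩
    show F₃.rep z = B₂ * (F₂.rep y * F₁.rep x)
    rw [← Matrix.mul_assoc, ← hB₂, ← hB₁]

end Fermat.Agent.S48x.Coh
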