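import Fermat.Agent.S48x.Coh.CosetSys

/-!
# P-S48 block (b1): composition, change of representatives, conjugation, universal quotient

* `CosetSys.comp S₁ S₂` : the product system; `heckeHom (S₁.comp S₂) = heckeHom S₁ ∘ heckeHom S₂`.
* `CosetSys.heckeHom_eq_of_equiv` : the operator only depends on the left cosets `Γ * rep x`.
* `conjSys σ` : conjugation by an element of `SL(2, ℤ)` normalising `Γ` (diamond operators).
* `CosetSys.opQ` : the endomorphism of the universal quotient `PEQuot Γ` inducing `heckeHom` on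
  `Hom(PEQuot Γ, B) = homPE Γ B` for every coefficient group `B`.
-/

set_option autoImplicit false

namespace Fermat.Agent.S48x.Coh

open scoped MatrixGroups
open Fermat.Agent.Gateway.A2 Fermat.Agent.Gateway.A2.Count

theorem toMat_inv_mul {Γ : Subgroup SL(2, ℤ)} (a : Γ) : toMat a⁻¹ * toMat a = 1 := by
  rw [← toMat_mul, inv_mul_cancel, toMat_one]

/-- `A * R = B * R'` with `A, B ∈ Γ` gives `R = (A⁻¹ * B) * R'`. -/
theorem eq_toMat_mul_of_mul_eq {Γ : Subgroup SL(2, ℤ)} {a b : Γ}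
    {R R' : Matrix (Fin 2) (Fin 2) ℤ} (h : toMat a * R = toMat b * R') :
    R = toMat (a⁻¹ * b) * R' := by
  rw [toMat_mul, Matrix.mul_assoc, ← h, ← Matrix.mul_assoc, toMat_inv_mul, Matrix.one_mul]

namespace CosetSys

variable {Γ : Subgroup SL(2, ℤ)}

/-- The product of two coset systems: representatives `S₂.rep y * S₁.rep x`. -/
def comp (S₁ S₂ : CosetSys Γ) : CosetSys Γ where
  X := S₁.X × S₂.X
  rep xy := S₂.rep xy.2 * S₁.rep xy.1
  det_ne xy := by
    rw [Matrix.det_mul]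
    exact mul_ne_zero (S₂.det_ne _) (S₁.det_ne _)
  act γ xy := (S₁.act γ xy.1, S₂.act (S₁.coc xy.1 γ) xy.2)
  act_one xy := by
    obtain ⟨x, y⟩ := xy
    simp [S₁.act_one, S₁.coc_one, S₂.act_one]
  act_mul γ δ xy := by
    obtain ⟨x, y⟩ := xy
    simp [S₁.act_mul, S₁.coc_mul, S₂.act_mul]
  coc xy γ := S₂.coc xy.2 (S₁.coc xy.1 γ)
  spec xy γ := by
    obtain ⟨x, y⟩ := xy
    show S₂.rep y * S₁.rep x * toMat γ =
      toMat (S₂.coc y (S₁.coc x γ)) * (S₂.rep (S₂.act (S₁.coc x γ) y) * S₁.rep (S₁.act γ x))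
    rw [Matrix.mul_assoc, S₁.spec x γ, ← Matrix.mul_assoc, S₂.spec y (S₁.coc x γ),
      Matrix.mul_assoc]

theorem heckeHom_comp_sys (S₁ S₂ : CosetSys Γ) (A : Type*) [AddCommGroup A]
    (φ : Additive Γ →+ A) :
    (S₁.comp S₂).heckeHom A φ = S₁.heckeHom A (S₂.heckeHom A φ) := by
  refine AddMonoidHom.ext fun γ => ?_
  obtain ⟨γ, rfl⟩ := Additive.ofMul.surjective γ
  rw [heckeHom_apply, heckeHom_apply]
  simp_rw [heckeHom_apply]
  exact Fintype.sum_prod_type _

/-- The left cosets `Γ * rep x` are pairwise distinct. -/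
def IsInj (S : CosetSys Γ) : Prop :=
  ∀ (x y : S.X) (g : Γ), S.rep x = toMat g * S.rep y → x = y

/-- Change of representatives within the left cosets: the cocycles differ by a coboundary. -/
theorem coc_of_equiv (S S' : CosetSys Γ) (e : S.X ≃ S'.X) (u : S.X → Γ)
    (hrep : ∀ x, S'.rep (e x) = toMat (u x) * S.rep x)
    (hact : ∀ (γ : Γ) (x : S.X), S'.act γ (e x) = e (S.act γ x)) (x : S.X) (γ : Γ) :
    S'.coc (e x) γ * u (S.act γ x) = u x * S.coc x γ := by
  apply toMat_injective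
  apply mat_cancel_right (S.det_ne (S.act γ x))
  have h1 := S'.spec (e x) γ
  rw [hact, hrep, hrep, Matrix.mul_assoc, S.spec x γ] at h1
  rw [toMat_mul, toMat_mul, Matrix.mul_assoc, ← h1, Matrix.mul_assoc]

theorem heckeHom_eq_of_equiv (S S' : CosetSys Γ) (e : S.X ≃ S'.X) (u : S.X → Γ)
    (hrep : ∀ x, S'.rep (e x) = toMat (u x) * S.rep x)
    (hact : ∀ (γ : Γ) (x : S.X), S'.act γ (e x) = e (S.act γ x))
    (A : Type*) [AddCommGroup A] (φ : Additive Γ →+ A) :
    S'.heckeHom A φ = S.heckeHom A φ := by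
  refine AddMonoidHom.ext fun γ => ?_
  obtain ⟨γ, rfl⟩ := Additive.ofMul.surjective γ
  rw [heckeHom_apply, heckeHom_apply, ← e.sum_comp]
  have key : ∀ x : S.X, φ (Additive.ofMul (S'.coc (e x) γ)) =
      φ (Additive.ofMul (S.coc x γ)) + (φ (Additive.ofMul (u x)) -
        φ (Additive.ofMul (u (S.act γ x)))) := by
    intro x
    have h := congrArg (fun g : Γ => φ (Additive.ofMul g)) (coc_of_equiv S S' e u hrep hact x γ)
    simp only [ofMul_mul, map_add] at h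
    rw [eq_sub_of_add_eq h]
    abel
  simp_rw [key]
  rw [Finset.sum_add_distrib, Finset.sum_sub_distrib]
  have h2 : ∑ x : S.X, φ (Additive.ofMul (u (S.act γ x))) = ∑ x : S.X, φ (Additive.ofMul (u x)) :=
    Equiv.sum_comp (S.actPerm γ) (fun x => φ (Additive.ofMul (u x)))
  rw [h2, sub_self, add_zero]

/-- If the target system has pairwise distinct cosets, compatibility of the actions is
automatic. -/
theorem act_of_equiv_of_isInj (S S' : CosetSys Γ) (hS' : S'.IsInj) (e : S.X ≃ S'.X)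
    (u : S.X → Γ) (hrep : ∀ x, S'.rep (e x) = toMat (u x) * S.rep x) (γ : Γ) (x : S.X) :
    S'.act γ (e x) = e (S.act γ x) := by
  have h1 := S'.spec (e x) γ
  rw [hrep, Matrix.mul_assoc, S.spec x γ, ← Matrix.mul_assoc, ← toMat_mul] at h1
  -- `toMat (u x * coc) * S.rep (act) = toMat (coc') * S'.rep (act')`
  have h2 : S.rep (S.act γ x) = toMat (u (S.act γ x))⁻¹ * S'.rep (e (S.act γ x)) := by
    rw [hrep, ← Matrix.mul_assoc, toMat_inv_mul, Matrix.one_mul]
  rw [h2, ← Matrix.mul_assoc, ← toMat_mul] at h1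
  have h3 := eq_toMat_mul_of_mul_eq h1.symm
  exact hS' _ _ _ h3

theorem heckeHom_eq_of_equiv_of_isInj (S S' : CosetSys Γ) (hS' : S'.IsInj) (e : S.X ≃ S'.X)
    (u : S.X → Γ) (hrep : ∀ x, S'.rep (e x) = toMat (u x) * S.rep x)
    (A : Type*) [AddCommGroup A] (φ : Additive Γ →+ A) :
    S'.heckeHom A φ = S.heckeHom A φ :=
  heckeHom_eq_of_equiv S S' e u hrep (act_of_equiv_of_isInj S S' hS' e u hrep) A φ

end CosetSys

/-! ### Conjugation systems -/

/-- The integer matrix of an element of `SL(2, ℤ)`. -/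
abbrev slMat (σ : SL(2, ℤ)) : Matrix (Fin 2) (Fin 2) ℤ := (σ : Matrix (Fin 2) (Fin 2) ℤ)

/-- Conjugation by an element `σ` of `SL(2, ℤ)` normalising `Γ`, as a coset system with one
element: `coc γ = σ * γ * σ⁻¹`. -/
def conjSys {Γ : Subgroup SL(2, ℤ)} (σ : SL(2, ℤ)) (hσ : ∀ γ ∈ Γ, σ * γ * σ⁻¹ ∈ Γ) :
    CosetSys Γ where
  X := Unit
  rep _ := slMat σ
  det_ne _ := by
    rw [show (slMat σ).det = 1 from σ.2]
    exact one_ne_zero
  act _ x := x
  act_one _ := rfl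
  act_mul _ _ _ := rfl
  coc _ γ := ⟨σ * γ * σ⁻¹, hσ γ γ.2⟩
  spec _ γ := by
    show slMat σ * slMat (γ : SL(2, ℤ)) = slMat (σ * (γ : SL(2, ℤ)) * σ⁻¹) * slMat σ
    rw [← Matrix.SpecialLinearGroup.coe_mul, ← Matrix.SpecialLinearGroup.coe_mul]
    congr 1
    group

theorem conjSys_heckeHom_apply {Γ : Subgroup SL(2, ℤ)} (σ : SL(2, ℤ))
    (hσ : ∀ γ ∈ Γ, σ * γ * σ⁻¹ ∈ Γ) (A : Type*) [AddCommGroup A] (φ : Additive Γ →+ A)
    (γ : Γ) :
    (conjSys σ hσ).heckeHom A φ (Additive.ofMul γ) =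
      φ (Additive.ofMul (⟨σ * γ * σ⁻¹, hσ γ γ.2⟩ : Γ)) := by
  rw [CosetSys.heckeHom_apply]
  simp [conjSys]

/-! ### The universal quotient -/

namespace CosetSys

variable {Γ : Subgroup SL(2, ℤ)} (S : CosetSys Γ)

/-- The universal character `Γ → PEQuot Γ`. -/
def univ (Γ : Subgroup SL(2, ℤ)) : Additive Γ →+ Additive (PEQuot Γ) :=
  MonoidHom.toAdditive (peProj Γ)

theorem univ_mem_homPE (Γ : Subgroup SL(2, ℤ)) : univ Γ ∈ homPE ℤ Γ (Additive (PEQuot Γ)) := by
  intro γ hγ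
  show Additive.ofMul (peProj Γ γ) = 0
  rw [peProj_eq_one Γ γ hγ]
  rfl

theorem peRes_eq_comp_univ {B : Type*} [AddCommGroup B] (φ : Additive (PEQuot Γ) →+ B) :
    peRes Γ ℤ B φ = φ.comp (univ Γ) := rfl

/-- The endomorphism of the universal quotient induced by a coset system. -/
noncomputable def opQ : Additive (PEQuot Γ) →+ Additive (PEQuot Γ) :=
  peLift Γ ℤ (Additive (PEQuot Γ)) (S.heckeHom _ (univ Γ)) (S.heckeHom_mem_homPE (univ_mem_homPE Γ))

theorem opQ_comp_univ : S.opQ.comp (univ Γ) = S.heckeHom _ (univ Γ) :=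
  peRes_peLift Γ ℤ (Additive (PEQuot Γ)) _ _

/-- `heckeHom` on `Hom(PEQuot Γ, B)` is precomposition with `opQ`. -/
theorem heckeHom_peRes {B : Type*} [AddCommGroup B] (φ : Additive (PEQuot Γ) →+ B) :
    S.heckeHom B (peRes Γ ℤ B φ) = peRes Γ ℤ B (φ.comp S.opQ) := by
  rw [peRes_eq_comp_univ, peRes_eq_comp_univ, S.heckeHom_comp, AddMonoidHom.comp_assoc,
    S.opQ_comp_univ]

theorem opQ_comp_sys (S₁ S₂ : CosetSys Γ) : (S₁.comp S₂).opQ = S₂.opQ.comp S₁.opQ := by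
  apply peRes_injective Γ ℤ (Additive (PEQuot Γ))
  rw [peRes_eq_comp_univ, peRes_eq_comp_univ, opQ_comp_univ, heckeHom_comp_sys,
    AddMonoidHom.comp_assoc, opQ_comp_univ, ← S₂.opQ_comp_univ, S₁.heckeHom_comp]

end CosetSys

end Fermat.Agent.S48x.Coh
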