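import Mathlib
import Fermat.Agent.Gateway.A2.Defs
import Fermat.Agent.Gateway.A2.CountPE
import Fermat.Agent.Gateway.Hecke.CohPE

/-!
# P-S48 block (b1): abstract Hecke coset systems on `Hom(Γ, A)`

A *coset system* for a subgroup `Γ ≤ SL(2, ℤ)` is a finite family of integer matrices `rep x` of
nonzero determinant, together with a right action of `Γ` on the index set and a cocycle
`coc x γ ∈ Γ` such that `rep x * γ = coc x γ * rep (x · γ)`.  It defines an operator
`(heckeHom φ) γ = ∑ x, φ (coc x γ)` on additive characters of `Γ`, natural in the coefficient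
group, preserving the characters that kill all parabolic / elliptic elements.

Everything is generic in `Γ`: Hecke operators `T_p` and diamond operators for `Γ₁(M)` are
instances (see `Rep1.lean`).
-/

set_option autoImplicit false

namespace Fermat.Agent.S48x.Coh

open scoped MatrixGroups
open Fermat.Agent.Gateway.A2 Fermat.Agent.Gateway.A2.Count

/-- The integer matrix of an element of a subgroup of `SL(2, ℤ)`. -/
abbrev toMat {Γ : Subgroup SL(2, ℤ)} (γ : Γ) : Matrix (Fin 2) (Fin 2) ℤ :=
  ((γ : SL(2, ℤ)) : Matrix (Fin 2) (Fin 2) ℤ)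

theorem toMat_injective {Γ : Subgroup SL(2, ℤ)} : Function.Injective (toMat (Γ := Γ)) := by
  intro a b h
  exact Subtype.ext (Subtype.ext h)

theorem toMat_mul {Γ : Subgroup SL(2, ℤ)} (a b : Γ) : toMat (a * b) = toMat a * toMat b := by
  simp [toMat]

theorem toMat_one {Γ : Subgroup SL(2, ℤ)} : toMat (1 : Γ) = 1 := by
  simp [toMat]

/-- Right cancellation of an integer matrix of nonzero determinant. -/
theorem mat_cancel_right {A B R : Matrix (Fin 2) (Fin 2) ℤ} (hR : R.det ≠ 0)
    (h : A * R = B * R) : A = B := by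
  have h1 : A * R * R.adjugate = B * R * R.adjugate := by rw [h]
  rw [Matrix.mul_assoc, Matrix.mul_assoc, Matrix.mul_adjugate, Matrix.mul_smul, Matrix.mul_smul,
    Matrix.mul_one, Matrix.mul_one] at h1
  exact smul_right_injective _ hR h1

/-- Conjugate integer matrices (by a matrix of nonzero determinant) have the same trace. -/
theorem trace_eq_of_conj {A B R : Matrix (Fin 2) (Fin 2) ℤ} (hR : R.det ≠ 0)
    (h : R * A = B * R) : A.trace = B.trace := by
  have h1 : (R * A * R.adjugate).trace = (B * R * R.adjugate).trace := by rw [h]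
  rw [Matrix.mul_assoc B, Matrix.mul_adjugate, Matrix.mul_smul, Matrix.mul_one,
    Matrix.trace_smul, Matrix.mul_assoc, Matrix.trace_mul_comm, Matrix.mul_assoc,
    Matrix.adjugate_mul, Matrix.mul_smul, Matrix.mul_one, Matrix.trace_smul] at h1
  exact smul_right_injective _ hR h1

/-- A coset system for `Γ`. -/
structure CosetSys (Γ : Subgroup SL(2, ℤ)) where
  /-- the index set -/
  X : Type
  [instFintype : Fintype X]
  /-- the representatives -/
  rep : X → Matrix (Fin 2) (Fin 2) ℤ
  det_ne : ∀ x, (rep x).det ≠ 0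
  /-- the right action of `Γ` on the index set -/
  act : Γ → X → X
  act_one : ∀ x, act 1 x = x
  act_mul : ∀ (γ δ : Γ) (x : X), act (γ * δ) x = act δ (act γ x)
  /-- the cocycle -/
  coc : X → Γ → Γ
  spec : ∀ (x : X) (γ : Γ), rep x * toMat γ = toMat (coc x γ) * rep (act γ x)

attribute [instance] CosetSys.instFintype

namespace CosetSys

variable {Γ : Subgroup SL(2, ℤ)} (S : CosetSys Γ)

theorem coc_mul (x : S.X) (γ δ : Γ) :
    S.coc x (γ * δ) = S.coc x γ * S.coc (S.act γ x) δ := by
  apply toMat_injective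
  apply mat_cancel_right (S.det_ne (S.act (γ * δ) x))
  rw [← S.spec, toMat_mul, toMat_mul, ← Matrix.mul_assoc, S.spec x γ, Matrix.mul_assoc,
    S.spec (S.act γ x) δ, S.act_mul, Matrix.mul_assoc]

theorem coc_one (x : S.X) : S.coc x 1 = 1 := by
  apply toMat_injective
  apply mat_cancel_right (S.det_ne (S.act 1 x))
  rw [← S.spec, toMat_one, Matrix.mul_one, Matrix.one_mul, S.act_one]

/-- The permutation of the index set induced by `γ`. -/
def actPerm (γ : Γ) : Equiv.Perm S.X where
  toFun := S.act γ
  invFun := S.act γ⁻¹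
  left_inv x := by rw [← S.act_mul, mul_inv_cancel, S.act_one]
  right_inv x := by rw [← S.act_mul, inv_mul_cancel, S.act_one]

@[simp] theorem actPerm_apply (γ : Γ) (x : S.X) : S.actPerm γ x = S.act γ x := rfl

theorem act_pow (γ : Γ) (k : ℕ) (x : S.X) : S.act (γ ^ k) x = (S.actPerm γ ^ k) x := by
  induction k generalizing x with
  | zero => simp [S.act_one]
  | succ k ih =>
    rw [pow_succ', S.act_mul, pow_succ, Equiv.Perm.mul_apply, actPerm_apply, ih]

/-- The operator on additive characters defined by a coset system. -/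
noncomputable def heckeHom (A : Type*) [AddCommGroup A] :
    (Additive Γ →+ A) →+ (Additive Γ →+ A) where
  toFun φ :=
    { toFun := fun γ => ∑ x : S.X, φ (Additive.ofMul (S.coc x γ.toMul))
      map_zero' := by
        show ∑ x : S.X, φ (Additive.ofMul (S.coc x 1)) = 0
        simp [S.coc_one]
      map_add' := by
        intro a b
        show ∑ x : S.X, φ (Additive.ofMul (S.coc x (a.toMul * b.toMul))) = _
        simp_rw [S.coc_mul, ofMul_mul, map_add, Finset.sum_add_distrib]
        congr 1
        exact Equiv.sum_comp (S.actPerm a.toMul)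
          (fun y => φ (Additive.ofMul (S.coc y b.toMul))) }
  map_zero' := by
    ext γ
    simp
  map_add' := by
    intro φ ψ
    ext γ
    simp [Finset.sum_add_distrib]

theorem heckeHom_apply (A : Type*) [AddCommGroup A] (φ : Additive Γ →+ A) (γ : Γ) :
    S.heckeHom A φ (Additive.ofMul γ) = ∑ x : S.X, φ (Additive.ofMul (S.coc x γ)) := rfl

/-- Naturality in the coefficient group. -/
theorem heckeHom_comp {A B : Type*} [AddCommGroup A] [AddCommGroup B] (f : A →+ B)
    (φ : Additive Γ →+ A) :
    S.heckeHom B (f.comp φ) = f.comp (S.heckeHom A φ) := by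
  ext γ
  show ∑ x : S.X, f (φ (Additive.ofMul (S.coc x γ))) =
    f (∑ x : S.X, φ (Additive.ofMul (S.coc x γ)))
  rw [map_sum]

theorem map_coc_pow {A : Type*} [AddCommGroup A] (φ : Additive Γ →+ A) (x : S.X) (γ : Γ)
    (k : ℕ) :
    φ (Additive.ofMul (S.coc x (γ ^ k))) =
      ∑ i ∈ Finset.range k, φ (Additive.ofMul (S.coc ((S.actPerm γ ^ i) x) γ)) := by
  induction k with
  | zero => simp [S.coc_one]
  | succ k ih =>
    rw [pow_succ, S.coc_mul, ofMul_mul, map_add, ih, Finset.sum_range_succ, S.act_pow]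

/-- If `γ ^ k` fixes `x`, then `coc x (γ ^ k)` has the same trace as `γ ^ k`. -/
theorem isPE_coc_of_fixed {x : S.X} {γ : Γ} (h : S.act γ x = x)
    (hγ : IsPE (γ : SL(2, ℤ))) : IsPE (S.coc x γ : SL(2, ℤ)) := by
  have hs := S.spec x γ
  rw [h] at hs
  have ht := trace_eq_of_conj (S.det_ne x) hs
  unfold IsPE at hγ ⊢
  rw [← ht]
  exact hγ

theorem heckeHom_mem_homPE {R : Type*} [Semiring R] {A : Type*} [AddCommGroup A] [Module R A]
    {φ : Additive Γ →+ A} (hφ : φ ∈ homPE R Γ A) : S.heckeHom A φ ∈ homPE R Γ A := by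
  intro γ hγ
  rw [heckeHom_apply]
  refine Fermat.Agent.Gateway.HeckeCoh.sum_eq_zero_of_orbit_sums (S.actPerm γ)
    (fun x => φ (Additive.ofMul (S.coc x γ))) fun x => ?_
  set k := Function.minimalPeriod (S.actPerm γ • ·) x with hk
  have hper : (S.actPerm γ ^ k) x = x := by
    have h := Function.isPeriodicPt_minimalPeriod (S.actPerm γ • ·) x
    have h2 : (S.actPerm γ • ·)^[k] x = x := h
    rw [smul_iterate] at h2
    exact h2
  have hsum : ∑ i ∈ Finset.range k, φ (Additive.ofMul (S.coc ((S.actPerm γ ^ i) • x) γ)) =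
      φ (Additive.ofMul (S.coc x (γ ^ k))) := (S.map_coc_pow φ x γ k).symm
  rw [hsum]
  apply hφ
  have hfix : S.act (γ ^ k) x = x := by rw [S.act_pow, hper]
  have := S.isPE_coc_of_fixed hfix (by
    rw [Subgroup.coe_pow]
    exact Fermat.Agent.Gateway.HeckeCoh.isPE_pow hγ k)
  exact this

theorem heckeHom_smul {R : Type*} [Semiring R] {A : Type*} [AddCommGroup A] [Module R A]
    (c : R) (φ : Additive Γ →+ A) :
    S.heckeHom A (c • φ) = c • S.heckeHom A φ := by
  refine AddMonoidHom.ext fun γ => ?_
  obtain ⟨γ, rfl⟩ := Additive.ofMul.surjective γ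
  rw [AddMonoidHom.smul_apply, heckeHom_apply, heckeHom_apply, Finset.smul_sum]
  rfl

end CosetSys

end Fermat.Agent.S48x.Coh
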