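import Fermat.Agent.S48x.Coh.LatticeData
import Fermat.Agent.S48x.G1.Hecke.CohPeriodTwist
import Fermat.Agent.S27x.Count.Final

/-!
# P-S48 block (b1): the cohomological half of the `Γ₁`-gateway export, unconditionally

* `freeQLat1` : the lattice `QLat1 M = ±Γ₁(M)^ab / ⟨parabolic, elliptic⟩` is free
  (helper20's `S27x.Count.nonempty_PEQuot_addEquiv_general`);
* `tEquivariant` : the `T_p`-equivariance of the period map (helper9's `periodMap1_heckeTLin`);
* `latticeInputsOfJSide`, `nonempty_torsionHeckeData1` : from the Jacobian side `JSideInputs M ℓ S`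
  alone to `LatticeInputs (heckeOps1 M 2) ℓ S` and `DS2.TorsionHeckeData1 (heckeOps1 M 2) ℓ S`.
-/

set_option autoImplicit false
set_option linter.unusedSectionVars false

namespace Fermat.Agent.S48x.Coh

open CongruenceSubgroup Matrix.SpecialLinearGroup
open Fermat.Agent.S48x.G1 Fermat.Agent.S48x.Nebentypus Fermat.Agent.S48x.DS2
open Fermat.Agent.S48x.G1.Export Fermat.Agent.S48x.G1.ExportL
open scoped MatrixGroups

variable (M : ℕ) [NeZero M]

/-- The lattice `QLat1 M` is free. -/
instance freeQLat1 : Module.Free ℤ (QLat1 M) := by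
  obtain ⟨e⟩ := Fermat.Agent.S27x.Count.nonempty_PEQuot_addEquiv_general (Gamma1pm M)
    (neg_one_mem_Gamma1pm M)
  exact Module.Free.of_equiv e.toIntLinearEquiv.symm

/-- The `T_p`-equivariance of the period map. -/
theorem tEquivariant : TEquivariant M := by
  intro p _ hp hpM t f
  exact periodMap1_heckeTLin hp hpM t f

variable {M} {ℓ : ℕ} {S : Finset ℕ}

/-- **The lattice inputs of the `Γ₁`-gateway** from the Jacobian side alone. -/
noncomputable def latticeInputsOfJSide (I : JSideInputs M ℓ S) :
    LatticeInputs (heckeOps1 M 2) ℓ S :=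
  latticeInputs I (tEquivariant M)

/-- **The `Γ₁`-gateway export** from the Jacobian side alone. -/
theorem nonempty_torsionHeckeData1 (hℓ : ℓ.Prime) (I : JSideInputs M ℓ S) :
    Nonempty (TorsionHeckeData1 (heckeOps1 M 2) ℓ S) :=
  nonempty_torsionHeckeData1_of_jSide hℓ I (tEquivariant M)

end Fermat.Agent.S48x.Coh
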