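import Fermat.Agent.S48x.Coh.Bridge
import Fermat.Agent.S48x.G1.ES1.Injective

/-!
# P-S48 block (b1): the lattice `Q = ±Γ₁(M)^ab / ⟨parabolic, elliptic⟩` with its commuting
Hecke and diamond endomorphisms, and the period map into `Hom(Q, ℂ)`

This file packages the INSTANCE DATA of the lattice variant of the `Γ₁`-gateway export:

* `QLat1 M = Additive (PEQuot (Gamma1pm M))`, a finitely generated abelian group;
* `uT M p`, `uD M d : Module.End ℤ (QLat1 M)` : the endomorphisms of the universal quotient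
  representing helper4's `heckeHom1` (any twist) and `diamHom τ` (any `τ ∈ Γ₀(M)` with lower right
  entry `± d`): `peRes_comp_uT`, `peRes_comp_uD`;
* they commute pairwise (`uT_comm`, `uT_uD_comm`, `uD_comm`), `uD` is multiplicative (`uDHom`);
* `periodQ1 M : S₂(Γ₁(M)) →ₗ[ℂ] Hom(Q, ℂ)` is injective (`periodQ1_injective`), and the
  equivariance of `periodMap1` transfers to it (`periodQ1_T`, `periodQ1_D`).
-/

set_option autoImplicit false
set_option linter.unusedSectionVars false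

namespace Fermat.Agent.S48x.Coh

open CongruenceSubgroup Matrix.SpecialLinearGroup
open Fermat.Agent.Gateway.A2 Fermat.Agent.Gateway.A2.Count
open Fermat.Agent.Gateway.Export (CohOp)
open Fermat.Agent.S48x.G1
open scoped MatrixGroups

/-! ### Generalities on `CohOp.toEnd` -/

section CohOpLemmas

variable {Γ : Subgroup SL(2, ℤ)}

theorem cohOp_toEnd_ext {u v : Module.End ℤ (Additive (PEQuot Γ))}
    (h : peRes Γ ℤ (Additive (PEQuot Γ)) u.toAddMonoidHom =
      peRes Γ ℤ (Additive (PEQuot Γ)) v.toAddMonoidHom) : u = v := by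
  have h1 := peRes_injective Γ ℤ (Additive (PEQuot Γ)) h
  exact LinearMap.ext fun x => DFunLike.congr_fun h1 x

theorem peRes_toEnd_mul (T₁ T₂ : CohOp Γ) :
    peRes Γ ℤ (Additive (PEQuot Γ)) (T₁.toEnd * T₂.toEnd).toAddMonoidHom =
      T₂.op _ (T₁.op _ (peRes Γ ℤ _ (AddMonoidHom.id _))) := by
  have h1 : (T₁.toEnd * T₂.toEnd).toAddMonoidHom =
      (T₁.toEnd.toAddMonoidHom).comp T₂.toEnd.toAddMonoidHom := rfl
  rw [h1, CohOp.peRes_comp_toEnd T₂ ℤ, CohOp.peRes_toEnd]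

/-- Operators which commute on all `Hom(Γ, B)` have commuting `toEnd`. -/
theorem cohOp_toEnd_comm (T₁ T₂ : CohOp Γ)
    (h : ∀ (B : Type) [AddCommGroup B] (φ : Additive Γ →+ B),
      T₁.op B (T₂.op B φ) = T₂.op B (T₁.op B φ)) :
    T₁.toEnd * T₂.toEnd = T₂.toEnd * T₁.toEnd := by
  apply cohOp_toEnd_ext
  rw [peRes_toEnd_mul, peRes_toEnd_mul, h]

/-- Operators which agree on all `Hom(Γ, B)` have the same `toEnd`. -/
theorem cohOp_toEnd_congr (T₁ T₂ : CohOp Γ)
    (h : ∀ (B : Type) [AddCommGroup B] (φ : Additive Γ →+ B), T₁.op B φ = T₂.op B φ) :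
    T₁.toEnd = T₂.toEnd := by
  apply cohOp_toEnd_ext
  rw [CohOp.peRes_toEnd, CohOp.peRes_toEnd, h]

/-- A composite operator has the (reversed) product as `toEnd`. -/
theorem cohOp_toEnd_mul (T₁ T₂ T₃ : CohOp Γ)
    (h : ∀ (B : Type) [AddCommGroup B] (φ : Additive Γ →+ B), T₃.op B φ = T₂.op B (T₁.op B φ)) :
    T₃.toEnd = T₁.toEnd * T₂.toEnd := by
  apply cohOp_toEnd_ext
  rw [peRes_toEnd_mul, CohOp.peRes_toEnd, h]

/-- The identity operator has `toEnd = 1`. -/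
theorem cohOp_toEnd_one (T : CohOp Γ)
    (h : ∀ (B : Type) [AddCommGroup B] (φ : Additive Γ →+ B), T.op B φ = φ) : T.toEnd = 1 := by
  apply cohOp_toEnd_ext
  rw [CohOp.peRes_toEnd, h]
  rfl

end CohOpLemmas

variable (M : ℕ) [NeZero M]

/-- The lattice `Q = ±Γ₁(M)^ab / ⟨parabolic, elliptic⟩`, additively. -/
abbrev QLat1 : Type := Additive (PEQuot (Gamma1pm M))

instance finiteQLat1 : Module.Finite ℤ (QLat1 M) :=
  Module.Finite.iff_addGroup_fg.mpr (GroupFG.iff_add_fg.mp inferInstance)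

/-! ### The Hecke endomorphisms -/

/-- A chosen twist. -/
noncomputable def someTwist (p : ℕ) [Fact p.Prime] (hpM : ¬ p ∣ M) : Twist M p :=
  (nonempty_twist M p hpM).some

/-- The endomorphism of the lattice representing `T_p` (zero unless `p` is a prime not dividing
`M`). -/
noncomputable def uT (p : ℕ) : Module.End ℤ (QLat1 M) := by
  classical
  exact if h : p.Prime ∧ ¬ p ∣ M then
    haveI : Fact p.Prime := ⟨h.1⟩
    (heckeCohOp1 h.2 (someTwist M p h.2)).toEnd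
  else 0

theorem uT_eq {p : ℕ} [hp : Fact p.Prime] (hpM : ¬ p ∣ M) (t : Twist M p) :
    uT M p = (heckeCohOp1 hpM t).toEnd := by
  unfold uT
  rw [dif_pos ⟨hp.out, hpM⟩]
  apply cohOp_toEnd_congr
  intro B _ φ
  show heckeHom1 hpM (someTwist M p hpM) B φ = heckeHom1 hpM t B φ
  rw [heckeHom1_eq hpM (someTwist M p hpM) t]

theorem uT_of_not {p : ℕ} (h : ¬ (p.Prime ∧ ¬ p ∣ M)) : uT M p = 0 := by
  unfold uT
  rw [dif_neg h]

/-- `uT p` represents `heckeHom1` (for any twist) on `Hom(Q, B) = homPE(±Γ₁(M), B)`. -/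
theorem peRes_comp_uT {p : ℕ} [Fact p.Prime] (hpM : ¬ p ∣ M) (t : Twist M p)
    (R : Type*) [Semiring R] (B : Type) [AddCommGroup B] [Module R B] (φ : QLat1 M →+ B) :
    peRes (Gamma1pm M) R B (φ.comp (uT M p).toAddMonoidHom) =
      heckeHom1 hpM t B (peRes (Gamma1pm M) R B φ) := by
  rw [uT_eq M hpM t]
  exact CohOp.peRes_comp_toEnd (heckeCohOp1 hpM t) R B φ

theorem uT_comm (p q : ℕ) : uT M p * uT M q = uT M q * uT M p := by
  by_cases hp : p.Prime ∧ ¬ p ∣ M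
  · by_cases hq : q.Prime ∧ ¬ q ∣ M
    · haveI : Fact p.Prime := ⟨hp.1⟩
      haveI : Fact q.Prime := ⟨hq.1⟩
      rw [uT_eq M hp.2 (someTwist M p hp.2), uT_eq M hq.2 (someTwist M q hq.2)]
      apply cohOp_toEnd_comm
      intro B _ φ
      exact heckeHom1_comm hp.2 hq.2 _ _ B φ
    · rw [uT_of_not M hq, mul_zero, zero_mul]
  · rw [uT_of_not M hp, mul_zero, zero_mul]

/-! ### The diamond endomorphisms -/

theorem exists_tau (d : (ZMod M)ˣ) :
    ∃ τ : Gamma0 M, lr M (τ : SL(2, ℤ)) = (d : ZMod M) := by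
  have hcop : IsCoprime (((d : ZMod M).val : ℕ) : ℤ) (M : ℤ) :=
    Nat.isCoprime_iff_coprime.mpr (ZMod.val_coe_unit_coprime d)
  obtain ⟨σ, hσ, hσd⟩ := exists_lowerRight_eq M hcop
  refine ⟨⟨σ, hσ⟩, ?_⟩
  show ((σ 1 1 : ℤ) : ZMod M) = d
  rw [hσd]
  push_cast
  exact ZMod.natCast_zmod_val _

/-- A chosen element of `Γ₀(M)` with lower right entry `d`. -/
noncomputable def tauOf (d : (ZMod M)ˣ) : Gamma0 M := (exists_tau M d).choose

theorem lr_tauOf (d : (ZMod M)ˣ) : lr M (tauOf M d : SL(2, ℤ)) = (d : ZMod M) :=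
  (exists_tau M d).choose_spec

/-- The endomorphism of the lattice representing the diamond operator `⟨d⟩`. -/
noncomputable def uD (d : (ZMod M)ˣ) : Module.End ℤ (QLat1 M) := (diamCohOp (tauOf M d)).toEnd

theorem uD_eq (d : (ZMod M)ˣ) (τ : Gamma0 M)
    (h : lr M (τ : SL(2, ℤ)) = (d : ZMod M) ∨ lr M (τ : SL(2, ℤ)) = -(d : ZMod M)) :
    uD M d = (diamCohOp τ).toEnd := by
  apply cohOp_toEnd_congr
  intro B _ φ
  show diamHom (tauOf M d) B φ = diamHom τ B φ
  rcases h with h | h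
  · rw [diamHom_eq_of_lr (tauOf M d) τ (by rw [lr_tauOf, h])]
  · rw [diamHom_eq_of_lr_neg (tauOf M d) τ (by rw [lr_tauOf, h, neg_neg])]

/-- `uD d` represents `diamHom τ` on `Hom(Q, B) = homPE(±Γ₁(M), B)`. -/
theorem peRes_comp_uD (d : (ZMod M)ˣ) (τ : Gamma0 M)
    (h : lr M (τ : SL(2, ℤ)) = (d : ZMod M) ∨ lr M (τ : SL(2, ℤ)) = -(d : ZMod M))
    (R : Type*) [Semiring R] (B : Type) [AddCommGroup B] [Module R B] (φ : QLat1 M →+ B) :
    peRes (Gamma1pm M) R B (φ.comp (uD M d).toAddMonoidHom) =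
      diamHom τ B (peRes (Gamma1pm M) R B φ) := by
  rw [uD_eq M d τ h]
  exact CohOp.peRes_comp_toEnd (diamCohOp τ) R B φ

theorem uD_mul (d d' : (ZMod M)ˣ) : uD M (d * d') = uD M d * uD M d' := by
  rw [uD_eq M (d * d') (tauOf M d * tauOf M d') (Or.inl ?_)]
  · apply cohOp_toEnd_mul
    intro B _ φ
    exact diamHom_mul (tauOf M d) (tauOf M d') B φ
  · show lr M ((tauOf M d : SL(2, ℤ)) * (tauOf M d' : SL(2, ℤ))) = _
    rw [lr_mul (tauOf M d).2, lr_tauOf, lr_tauOf]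
    simp

theorem uD_one : uD M 1 = 1 := by
  rw [uD_eq M 1 (1 : Gamma0 M) (Or.inl ?_)]
  · apply cohOp_toEnd_one
    intro B _ φ
    exact diamHom_one B φ
  · show lr M (1 : SL(2, ℤ)) = _
    rw [lr_one]
    simp

/-- The diamond operators on the lattice, as a monoid homomorphism. -/
noncomputable def uDHom : (ZMod M)ˣ →* Module.End ℤ (QLat1 M) where
  toFun := uD M
  map_one' := uD_one M
  map_mul' := uD_mul M

@[simp] theorem uDHom_apply (d : (ZMod M)ˣ) : uDHom M d = uD M d := rfl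

theorem uD_comm (d d' : (ZMod M)ˣ) : uD M d * uD M d' = uD M d' * uD M d := by
  rw [← uD_mul, ← uD_mul, mul_comm]

theorem uT_uD_comm (p : ℕ) (d : (ZMod M)ˣ) : uT M p * uD M d = uD M d * uT M p := by
  by_cases hp : p.Prime ∧ ¬ p ∣ M
  · haveI : Fact p.Prime := ⟨hp.1⟩
    rw [uT_eq M hp.2 (someTwist M p hp.2)]
    apply cohOp_toEnd_comm
    intro B _ φ
    exact heckeHom1_diamHom_comm hp.2 _ _ B φ
  · rw [uT_of_not M hp, mul_zero, zero_mul]

/-! ### The period map with values in `Hom(Q, ℂ)` -/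

/-- The period map of `S₂(Γ₁(M))` with values in `Hom(Q, ℂ)`. -/
noncomputable def periodQ1 : CuspForm (Gamma1 M) 2 →ₗ[ℂ] (QLat1 M →+ ℂ) :=
  (homPEEquiv (Gamma1pm M) ℂ ℂ).symm.toLinearMap ∘ₗ
    (LinearMap.codRestrict (homPE ℂ (Gamma1pm M) ℂ) (periodMapLinear1 M)
      (fun f => periodMap1_mem_homPE M f))

theorem peRes_periodQ1 (f : CuspForm (Gamma1 M) 2) :
    peRes (Gamma1pm M) ℂ ℂ (periodQ1 M f) = periodMap1 M f := by
  unfold periodQ1
  rw [LinearMap.comp_apply]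
  set y : homPE ℂ (Gamma1pm M) ℂ :=
    LinearMap.codRestrict (homPE ℂ (Gamma1pm M) ℂ) (periodMapLinear1 M) _ f with hy
  have h1 : ((homPEEquiv (Gamma1pm M) ℂ ℂ) ((homPEEquiv (Gamma1pm M) ℂ ℂ).symm y) :
      Additive (Gamma1pm M) →+ ℂ) = y := by rw [LinearEquiv.apply_symm_apply]
  have h2 : ∀ φ : QLat1 M →+ ℂ,
      ((homPEEquiv (Gamma1pm M) ℂ ℂ) φ : Additive (Gamma1pm M) →+ ℂ) =
        peRes (Gamma1pm M) ℂ ℂ φ := fun φ => rfl
  rw [h2] at h1
  exact h1

theorem periodQ1_injective : Function.Injective (periodQ1 M) := by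
  intro f g h
  apply periodMapLinear1_injective M
  show periodMap1 M f = periodMap1 M g
  rw [← peRes_periodQ1, ← peRes_periodQ1, h]

/-- Transfer of the `T_p`-equivariance of `periodMap1` to `periodQ1`. -/
theorem periodQ1_T {p : ℕ} [Fact p.Prime] (hpM : ¬ p ∣ M) (t : Twist M p)
    (f g : CuspForm (Gamma1 M) 2)
    (h : periodMap1 M g = heckeHom1 hpM t ℂ (periodMap1 M f)) :
    periodQ1 M g = (periodQ1 M f).comp (uT M p).toAddMonoidHom := by
  apply peRes_injective (Gamma1pm M) ℂ ℂ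
  rw [peRes_periodQ1, h, peRes_comp_uT M hpM t ℂ ℂ, peRes_periodQ1]

/-- Transfer of the diamond-equivariance of `periodMap1` to `periodQ1`. -/
theorem periodQ1_D (d : (ZMod M)ˣ) (τ : Gamma0 M)
    (hτ : lr M (τ : SL(2, ℤ)) = (d : ZMod M) ∨ lr M (τ : SL(2, ℤ)) = -(d : ZMod M))
    (f g : CuspForm (Gamma1 M) 2)
    (h : periodMap1 M g = diamHom τ ℂ (periodMap1 M f)) :
    periodQ1 M g = (periodQ1 M f).comp (uD M d).toAddMonoidHom := by
  apply peRes_injective (Gamma1pm M) ℂ ℂ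
  rw [peRes_periodQ1, h, peRes_comp_uD M d τ hτ ℂ ℂ, peRes_periodQ1]

end Fermat.Agent.S48x.Coh
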