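import Fermat.Agent.S48x.Coh.Final1
import Fermat.Agent.S48x.G1.LatticeOfCoh
import Fermat.Agent.S48x.DS2.Main

/-!
# P-S48: the `Γ₁`-gateway hypothesis `hG1` of `DS2.residualRepsExist` reduced to the Jacobian side

* `formsSide1 M S : G1.Final.FormsSide1 (heckeOps1 M 2) S` : the forms side of helper3's
  `G1/LatticeOfCoh.lean`, unconditionally (helper9's `periodMap1_heckeTLin` and
  `CohPeriodDiam1.periodMap1_diamLin`);
* `exists_torsionHeckeData1_of_jSide1`, `exists_torsionHeckeData1_of_jSideInputs` : a torsion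
  datum with `diamInv = false` from a Jacobian side (`G1.Final.JSide1` or `Coh.JSideInputs`) with
  `diamInv = false`;
* `hG1_of_jSide1` : the hypothesis `hG1` of `DS2.residualRepsExist` from Jacobian sides at all
  levels `M` with `4 ∣ M ∨ 9 ∣ M`;
* `residualRepsExist_of_jSide1` : `DS2.ResidualRepsExist` with `hG1` replaced by that.
-/

set_option autoImplicit false
set_option linter.unusedSectionVars false

namespace Fermat.Agent.S48x.Coh

open CongruenceSubgroup Matrix.SpecialLinearGroup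
open Fermat.Agent.S48x.G1 Fermat.Agent.S48x.Nebentypus Fermat.Agent.S48x.DS2
open Fermat.Agent.S48x.G1.Export Fermat.Agent.S48x.G1.ExportL
open scoped MatrixGroups

local notation "Zbar" => integralClosure ℤ ℂ

variable (M : ℕ) [NeZero M]

/-- The forms side of the `Γ₁`-gateway, unconditionally. -/
theorem formsSide1 (S : Finset ℕ) : G1.Final.FormsSide1 (heckeOps1 M 2) S where
  period_T := by
    intro p hp hpM _
    refine ⟨someTwist M p hpM, fun f => ?_⟩
    rw [heckeOps1_T M 2 hp.out hpM]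
    exact periodMap1_heckeTLin hp.out hpM (someTwist M p hpM) f
  period_D := by
    intro d
    refine ⟨tauOf M d, Or.inl (lr_tauOf M d), fun f => ?_⟩
    rw [heckeOps1_diam]
    exact CohPeriodDiam1.periodMap1_diamLin M d (tauOf M d) (lr_tauOf M d) f

variable {M} {ℓ : ℕ} {S : Finset ℕ}

/-- A torsion datum with the standard Eichler-Shimura relation from a Jacobian side in helper3's
`peRes` form. -/
theorem exists_torsionHeckeData1_of_jSide1 (hℓ : ℓ.Prime) (Jd : G1.Final.JSide1 M ℓ S)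
    (hJ : Jd.diamInv = false) :
    ∃ D : TorsionHeckeData1 (heckeOps1 M 2) ℓ S, D.diamInv = false :=
  G1.Final.exists_torsionHeckeData1 hℓ (formsSide1 M S) Jd hJ

/-- A torsion datum with the standard Eichler-Shimura relation from a Jacobian side in the form of
`Coh/LatticeData.lean`. -/
theorem exists_torsionHeckeData1_of_jSideInputs (hℓ : ℓ.Prime) (I : JSideInputs M ℓ S)
    (hI : I.diamInv = false) :
    ∃ D : TorsionHeckeData1 (heckeOps1 M 2) ℓ S, D.diamInv = false :=
  exists_torsionHeckeData1_diamInv_false hℓ (latticeInputsOfJSide I) hI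

/-- The `Γ₁`-gateway hypothesis of `DS2.residualRepsExist` from Jacobian sides. -/
theorem hG1_of_jSide1
    (h : ∀ (M ℓ : ℕ) [NeZero M], ℓ.Prime → ℓ ∣ M → (4 ∣ M ∨ 9 ∣ M) →
      ∃ Jd : G1.Final.JSide1 M ℓ M.primeFactors, Jd.diamInv = false) :
    ∀ (M ℓ : ℕ) [NeZero M], ℓ.Prime → ℓ ∣ M → (4 ∣ M ∨ 9 ∣ M) →
      ∃ (H : HeckeOps1 M 2) (D : TorsionHeckeData1 H ℓ M.primeFactors), D.diamInv = false := by
  intro M ℓ _ hℓ hℓM h49
  obtain ⟨Jd, hJ⟩ := h M ℓ hℓ hℓM h49
  exact ⟨heckeOps1 M 2, exists_torsionHeckeData1_of_jSide1 hℓ Jd hJ⟩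

/-- **DS2 from the Jacobian side**: residual representations exist, given the integral model
(DS0), the Eisenstein series congruent to one (E-WP) and Jacobian sides of the `Γ₁`-gateway. -/
theorem residualRepsExist_of_jSide1 {N : ℕ} [NeZero N] (ε : DirichletCharacter ℂ N) (a : ℕ → ℂ)
    (hmodel : HasIntegralModel N ε a)
    (ha : ∀ p : ℕ, p.Prime → ¬ p ∣ N → IsIntegral ℤ (a p))
    (hEis : ∀ (ℓ : ℕ) [NeZero ℓ], ℓ.Prime → ℓ ≠ 2 → ∀ (k : Type) [Field k] [CharP k ℓ]
      (φ : Zbar →+* k), EisensteinCongrOne ℓ φ)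
    (h : ∀ (M ℓ : ℕ) [NeZero M], ℓ.Prime → ℓ ∣ M → (4 ∣ M ∨ 9 ∣ M) →
      ∃ Jd : G1.Final.JSide1 M ℓ M.primeFactors, Jd.diamInv = false) :
    ResidualRepsExist N ε a :=
  residualRepsExist ε a hmodel ha hEis (hG1_of_jSide1 h)

end Fermat.Agent.S48x.Coh
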