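import Fermat.Agent.S48x.Coh.TT1
import Fermat.Agent.S48x.G1.Hecke.CohPeriodDiam1
import Fermat.Agent.S48x.Nebentypus.HeckeOps

/-!
# P-S48 block (b1): the forms side of the lattice variant

The period map `periodQ1 M : S₂(Γ₁(M)) → Hom(Q, ℂ)` intertwines the operators of helper62's
`heckeOps1 M 2 : DS2.HeckeOps1 M 2` with the lattice endomorphisms `uT M p`, `uD M d` of
`Coh/TT1.lean`:

* `periodQ1_diam` : `P (⟨d⟩ f) = (P f) ∘ uD d` (unconditional);
* `periodQ1_heckeT` : `P (T_p f) = (P f) ∘ uT p`, from the `T_p`-equivariance of `periodMap1`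
  (`G1/Hecke/CohPeriod1.lean`), taken as a hypothesis `TEquivariant M`.
-/

set_option autoImplicit false
set_option linter.unusedSectionVars false

namespace Fermat.Agent.S48x.Coh

open CongruenceSubgroup Matrix.SpecialLinearGroup
open Fermat.Agent.Gateway.A2 Fermat.Agent.Gateway.A2.Count
open Fermat.Agent.S48x.G1 Fermat.Agent.S48x.Nebentypus Fermat.Agent.S48x.Hecke1
open scoped MatrixGroups

variable (M : ℕ) [NeZero M]

/-- Diamond equivariance of `periodQ1`. -/
theorem periodQ1_diam (d : (ZMod M)ˣ) (f : CuspForm (Gamma1 M) 2) :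
    periodQ1 M ((heckeOps1 M 2).diam d f) = (periodQ1 M f).comp (uD M d).toAddMonoidHom := by
  refine periodQ1_D M d (tauOf M d) (Or.inl (lr_tauOf M d)) f _ ?_
  rw [heckeOps1_diam]
  exact CohPeriodDiam1.periodMap1_diamLin M d (tauOf M d) (lr_tauOf M d) f

/-- The `T_p`-equivariance of the period map `periodMap1` (statement of
`G1/Hecke/CohPeriod1.lean`). -/
def TEquivariant : Prop :=
  ∀ (p : ℕ) [Fact p.Prime] (hp : p.Prime) (hpM : ¬ p ∣ M) (t : Twist M p)
    (f : CuspForm (Gamma1 M) 2),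
    periodMap1 M (heckeTLin 2 hp hpM f) = heckeHom1 hpM t ℂ (periodMap1 M f)

/-- `T_p`-equivariance of `periodQ1`. -/
theorem periodQ1_heckeT (hT : TEquivariant M) {p : ℕ} (hp : p.Prime) (hpM : ¬ p ∣ M)
    (f : CuspForm (Gamma1 M) 2) :
    periodQ1 M ((heckeOps1 M 2).T p f) = (periodQ1 M f).comp (uT M p).toAddMonoidHom := by
  haveI : Fact p.Prime := ⟨hp⟩
  refine periodQ1_T M hpM (someTwist M p hpM) f _ ?_
  rw [heckeOps1_T M 2 hp hpM]
  exact hT p hp hpM (someTwist M p hpM) f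

end Fermat.Agent.S48x.Coh
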