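/-
P-S48 (Deligne-Serre), cohomological side of the `Γ₁`-gateway (helper25).

Freeness of a finitely generated abelian group from the count of its characters:
if `#Hom(Q, ℤ/l) = l ^ r` for every prime `l`, then `Q ≃ ℤ^r`.  Applied to the universal
quotient `PEQuot G = G^ab / ⟨parabolic, elliptic, ±1⟩` of a finite index subgroup `G` of
`SL(2, ℤ)`: the torsion count of layer (a) (`#J[l] = l ^ (2 g)` together with
`J[l] ≃ homPE(G, ℤ/l)`) makes the lattice `Additive (PEQuot G)` free of rank `r`.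
-/
import Mathlib
import Fermat.Agent.Gateway.A2.CountPE

set_option autoImplicit false

namespace Fermat.Agent.S48x.Coh

open scoped DirectSum MatrixGroups
open Fermat.Agent.Gateway.A2 Fermat.Agent.Gateway.A2.Count

section Abstract

/-- A finite abelian group has no nonzero homomorphism to `ZMod l` for a prime `l` larger
than its order. -/
theorem hom_zmod_eq_zero_of_card_lt {T : Type*} [AddCommGroup T] [Finite T] {l : ℕ}
    (hl : l.Prime) (hlt : Nat.card T < l) (ψ : T →+ ZMod l) : ψ = 0 := by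
  have : Fact l.Prime := ⟨hl⟩
  ext t
  have hpos : 0 < Nat.card T := Nat.card_pos
  have h1 : Nat.card T • t = 0 := by
    obtain ⟨c, hc⟩ := addOrderOf_dvd_natCard t
    rw [hc, mul_comm, mul_nsmul', addOrderOf_nsmul_eq_zero, nsmul_zero]
  have h2 : Nat.card T • ψ t = 0 := by rw [← map_nsmul, h1, map_zero]
  rw [nsmul_eq_mul] at h2
  rcases mul_eq_zero.mp h2 with h | h
  · exfalso
    rw [ZMod.natCast_eq_zero_iff] at h
    exact absurd (Nat.le_of_dvd hpos h) (not_le.mpr hlt)
  · simpa using h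

variable (A : Type*) [AddCommGroup A] [AddGroup.FG A]

/-- **Freeness from the count of characters.**  A finitely generated abelian group `A` with
`#Hom(A, ℤ/l) = l ^ r` for every prime `l` is free of rank `r`. -/
theorem nonempty_addEquiv_free_of_card (r : ℕ)
    (h : ∀ l : ℕ, l.Prime → Nat.card (A →+ ZMod l) = l ^ r) :
    Nonempty (A ≃+ (Fin r →₀ ℤ)) := by
  classical
  obtain ⟨n, ι, _, p, hp, e, ⟨f⟩⟩ := AddCommGroup.equiv_free_prod_directSum_zmod A
  have hfin := finite_directSum p hp e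
  -- `#Hom(A, ZMod m) = m ^ n * #Hom(T, ZMod m)`
  have hcard : ∀ (m : ℕ) [NeZero m], Nat.card (A →+ ZMod m)
      = m ^ n * Nat.card ((⨁ i : ι, ZMod (p i ^ e i)) →+ ZMod m) := by
    intro m _
    rw [Nat.card_congr (homEquiv f), Nat.card_prod, Nat.card_fun, Nat.card_zmod, Nat.card_fin]
  -- `n = r` from a large prime
  have hnr : n = r := by
    obtain ⟨l, hlge, hl⟩ := Nat.exists_infinite_primes (Nat.card (⨁ i : ι, ZMod (p i ^ e i)) + 1)
    have : Fact l.Prime := ⟨hl⟩
    have hlt : Nat.card (⨁ i : ι, ZMod (p i ^ e i)) < l := hlge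
    have hone : Nat.card ((⨁ i : ι, ZMod (p i ^ e i)) →+ ZMod l) = 1 := by
      have hsub : Subsingleton ((⨁ i : ι, ZMod (p i ^ e i)) →+ ZMod l) :=
        ⟨fun a b => (hom_zmod_eq_zero_of_card_lt hl hlt a).trans
          (hom_zmod_eq_zero_of_card_lt hl hlt b).symm⟩
      exact Nat.card_unique
    have h1 := h l hl
    rw [hcard l, hone, mul_one] at h1
    exact Nat.pow_right_injective hl.two_le h1
  -- the torsion part is trivial
  have he : ∀ i, e i = 0 := by
    by_contra hne
    obtain ⟨i, hi⟩ := not_forall.mp hne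
    have : Fact (p i).Prime := ⟨hp i⟩
    obtain ⟨ψ, hψ⟩ := exists_hom_ne_zero p hp e i hi
    have h1 := h (p i) (hp i)
    rw [hcard (p i), hnr] at h1
    have h3 := le_card_hom_of_ne_zero (p i) ψ hψ
    have h4 : p i ^ r * p i ≤ p i ^ r := le_trans (Nat.mul_le_mul_left _ h3) h1.le
    have h5 : 0 < p i ^ r := pow_pos (hp i).pos r
    have h6 : 1 < p i := (hp i).one_lt
    nlinarith
  have := subsingleton_directSum p e he
  have : Unique (⨁ i : ι, ZMod (p i ^ e i)) := Unique.mk' _
  exact ⟨(f.trans AddEquiv.prodUnique).trans (hnr ▸ AddEquiv.refl _)⟩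

end Abstract

section Module

/-- **Freeness from the count of characters**, module form: a finitely generated `ℤ`-module `Q`
with `#Hom(Q, ℤ/l) = l ^ r` for every prime `l` is free of rank `r`. -/
theorem free_of_card_hom {Q : Type*} [AddCommGroup Q] [Module.Finite ℤ Q] (r : ℕ)
    (h : ∀ l : ℕ, l.Prime → Nat.card (Q →+ ZMod l) = l ^ r) :
    Module.Free ℤ Q ∧ Module.finrank ℤ Q = r := by
  have hfg : AddGroup.FG Q := Module.Finite.iff_addGroup_fg.mp inferInstance
  obtain ⟨g⟩ := nonempty_addEquiv_free_of_card Q r h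
  let g' : Q ≃ₗ[ℤ] (Fin r →₀ ℤ) := g.toIntLinearEquiv
  refine ⟨Module.Free.of_equiv g'.symm, ?_⟩
  rw [g'.finrank_eq, Module.finrank_finsupp_self, Fintype.card_fin]

/-- The same with the count for all `m > 0` as hypothesis. -/
theorem free_of_card_hom_all {Q : Type*} [AddCommGroup Q] [Module.Finite ℤ Q] (r : ℕ)
    (h : ∀ m : ℕ, 0 < m → Nat.card (Q →+ ZMod m) = m ^ r) :
    Module.Free ℤ Q ∧ Module.finrank ℤ Q = r :=
  free_of_card_hom r fun l hl => h l hl.pos

end Module

section PEQuot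

variable (G : Subgroup SL(2, ℤ)) [G.FiniteIndex]

/-- The lattice `Additive (PEQuot G)` is a finitely generated abelian group. -/
instance addGroupFG_PEQuot : AddGroup.FG (Additive (PEQuot G)) :=
  AddGroup.fg_iff_mul_fg.mpr (fg_PEQuot G)

/-- The lattice `Additive (PEQuot G)` is a finitely generated `ℤ`-module. -/
instance moduleFinite_PEQuot : Module.Finite ℤ (Additive (PEQuot G)) :=
  Module.Finite.iff_addGroup_fg.mpr (addGroupFG_PEQuot G)

/-- **Freeness of the lattice from the torsion count.**  If `#homPE(G, ℤ/l) = l ^ r` for every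
prime `l`, then `Additive (PEQuot G)` is free of rank `r`. -/
theorem free_PEQuot_of_card (r : ℕ)
    (h : ∀ l : ℕ, l.Prime → Nat.card (homPE (ZMod l) G (ZMod l)) = l ^ r) :
    Module.Free ℤ (Additive (PEQuot G)) ∧ Module.finrank ℤ (Additive (PEQuot G)) = r := by
  refine free_of_card_hom r fun l hl => ?_
  rw [Nat.card_congr (homPEEquiv G (ZMod l) (ZMod l)).toEquiv]
  exact h l hl

/-- The lattice is isomorphic to `ℤ^r`. -/
theorem nonempty_PEQuot_addEquiv_of_card (r : ℕ)
    (h : ∀ l : ℕ, l.Prime → Nat.card (homPE (ZMod l) G (ZMod l)) = l ^ r) :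
    Nonempty (Additive (PEQuot G) ≃+ (Fin r →₀ ℤ)) := by
  refine nonempty_addEquiv_free_of_card (Additive (PEQuot G)) r fun l hl => ?_
  rw [Nat.card_congr (homPEEquiv G (ZMod l) (ZMod l)).toEquiv]
  exact h l hl

/-- Consequently `#homPE(G, ℤ/m) = m ^ r` for every `m ≥ 1`. -/
theorem card_homPE_zmod_of_card (r : ℕ)
    (h : ∀ l : ℕ, l.Prime → Nat.card (homPE (ZMod l) G (ZMod l)) = l ^ r)
    (m : ℕ) [NeZero m] : Nat.card (homPE (ZMod m) G (ZMod m)) = m ^ r := by
  obtain ⟨g⟩ := nonempty_PEQuot_addEquiv_of_card G r h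
  rw [← Nat.card_congr (homPEEquiv G (ZMod m) (ZMod m)).toEquiv,
    Nat.card_congr (g.addMonoidHomCongrLeftEquiv.trans (homFreeEquiv r)), Nat.card_fun,
    Nat.card_zmod, Nat.card_fin]

end PEQuot

end Fermat.Agent.S48x.Coh
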