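/-
P-S48 (Deligne-Serre), cohomological side of the `Γ₁`-gateway (helper25).

Freeness of the lattice `Additive (PEQuot Γ)` from the OUTPUT of layer (a) (`G1a/Transfer.lean`):
the torsion count `#Pic⁰(F_ℂ)[m] = m ^ (2 g)` together with the theta isomorphism
`Pic⁰(F_ℂ)[m] ≃ Hom_pe(Γ, μ_m)`.
-/
import Fermat.Agent.S48x.Coh.FreeOfCount
import Fermat.Agent.S48x.G1a.Transfer

set_option autoImplicit false
set_option linter.unusedSectionVars false
set_option linter.style.haveILetI false

noncomputable section

open scoped MatrixGroups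

namespace Fermat.Agent.S48x.Coh

open ModularCurve AlgebraicCurve IntermediateField
open Fermat.Agent.S24 Fermat.Agent.S24.Setup Fermat.Agent.S24.CuspOrd
open Fermat.Agent.Gateway.BaseChange Fermat.Agent.Gateway.BaseChange.Modular
open Fermat.Agent.Gateway.A2 Fermat.Agent.Gateway.A2.Count
open Fermat.Agent.Gateway.Dict.ConjAbs
open Fermat.Agent.S27x Fermat.Agent.S48x.G1a

attribute [local instance] Fermat.Agent.Gateway.BaseChange.Modular.algKbarC

section Char

variable (G : Subgroup SL(2, ℤ)) [G.FiniteIndex]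

/-- **Freeness of the lattice from the count of characters with values in `μ_l`.** -/
theorem free_PEQuot_of_card_charPE (r : ℕ)
    (h : ∀ l : ℕ, l.Prime → Nat.card (charPE G (rootsOfUnity l ℂ)) = l ^ r) :
    Module.Free ℤ (Additive (PEQuot G)) ∧ Module.finrank ℤ (Additive (PEQuot G)) = r := by
  refine free_PEQuot_of_card G r fun l hl => ?_
  have : NeZero l := ⟨hl.ne_zero⟩
  rw [← Nat.card_congr (charPEEquiv G (rootsOfUnity l ℂ) l (Complex.card_rootsOfUnity l))]
  exact h l hl

/-- **Freeness of the lattice from a torsion count and a theta bijection**: if `T l` has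
`l ^ r` elements and is in bijection with `Hom_pe(G, μ_l)` for every prime `l`, the lattice is
free of rank `r`. -/
theorem free_PEQuot_of_theta {T : ℕ → Type*} (r : ℕ)
    (θ : ∀ l : ℕ, l.Prime → Nonempty (T l ≃ Additive (charPE G (rootsOfUnity l ℂ))))
    (hcount : ∀ l : ℕ, l.Prime → Nat.card (T l) = l ^ r) :
    Module.Free ℤ (Additive (PEQuot G)) ∧ Module.finrank ℤ (Additive (PEQuot G)) = r := by
  refine free_PEQuot_of_card_charPE G r fun l hl => ?_
  obtain ⟨e⟩ := θ l hl
  rw [← hcount l hl]
  exact (Nat.card_congr (e.trans Additive.toMul)).symm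

end Char

section Transfer

variable {Fq : IntermediateField ℚ (LaurentSeries ℚ)}
variable {x : laurentBaseChange Kbar Fq} (hx : Transcendental Kbar x)
  [FiniteDimensional Kbar⟮x⟯ (laurentBaseChange Kbar Fq)]
variable {y : laurentBaseChange ℂ Fq} {Γ : Subgroup SL(2, ℤ)} [Γ.FiniteIndex]
  (D : EmbData ℂ (laurentBaseChange ℂ Fq) (RingHom.id ℂ) y Γ) {n : ℕ} (hn : 0 < n)
  (hcusp : ∀ (f : laurentBaseChange ℂ Fq) (g : SL(2, ℤ)), IsCuspMer n (g • D.emb f))

include hx D hn hcusp in
/-- **Freeness of the lattice from layer (a)**: for an analytic realisation of the function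
field with exact stabiliser `Γ`, the lattice `Γ^ab / ⟨parabolic, elliptic⟩` is free of rank
`2 g`. -/
theorem free_PEQuot_of_embData :
    Module.Free ℤ (Additive (PEQuot Γ)) ∧
      Module.finrank ℤ (Additive (PEQuot Γ)) = 2 * genusFF ℂ (laurentBaseChange ℂ Fq) := by
  refine free_PEQuot_of_theta (T := fun l => Pic0.torsion ℂ (laurentBaseChange ℂ Fq) l) Γ _
    (fun l hl => ?_) (fun l hl => countOK_C hx D hn hcusp l hl.pos)
  have : NeZero l := ⟨hl.ne_zero⟩
  exact ⟨(thetaEquivC hx D hn hcusp l).toEquiv⟩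

include hx D hn hcusp in
/-- The same with the genus over `ℚ̄`. -/
theorem free_PEQuot_of_embData_Kbar :
    Module.Free ℤ (Additive (PEQuot Γ)) ∧
      Module.finrank ℤ (Additive (PEQuot Γ)) = 2 * genusFF Kbar (laurentBaseChange Kbar Fq) := by
  rw [← genusFF_eq hx]
  exact free_PEQuot_of_embData hx D hn hcusp

end Transfer

end Fermat.Agent.S48x.Coh
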