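import Fermat.Agent.S48x.Coh.Compare

/-!
# P-S48 block (b1): coset systems over a group `Γ ⊇ Γ₁(M)` modelled on representative families

The commutativity and comparison theorems of `Commute.lean` / `Compare.lean` only use the
*representatives* of the coset systems.  Here they are restated for coset systems of an arbitrary
subgroup `Γ ⊇ Γ₁(M)` (for instance `±Γ₁(M)`) whose representatives are those of a
`RepFamily M n`.

* `CosetSys.Model S F` : the representatives of `S` are those of `F` (up to reindexing);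
* `CosetSys.heckeHom_comm_of_model` : coprime determinants commute;
* `CosetSys.heckeHom_eq_of_model` : same determinant and level give the same operator.
-/

set_option autoImplicit false

namespace Fermat.Agent.S48x.Coh

open scoped MatrixGroups
open CongruenceSubgroup
open Fermat.Agent.Gateway.A2 Fermat.Agent.Gateway.A2.Count

variable {M : ℕ} {Γ : Subgroup SL(2, ℤ)}

/-- The inclusion `Γ₁(M) → Γ`. -/
def inclG (hΓ : Gamma1 M ≤ Γ) (g : Gamma1 M) : Γ := ⟨(g : SL(2, ℤ)), hΓ g.2⟩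

theorem toMat_inclG (hΓ : Gamma1 M ≤ Γ) (g : Gamma1 M) : toMat (inclG hΓ g) = toMat g := rfl

/-- The representatives of the coset system `S` are those of the family `F`. -/
structure CosetSys.Model {n : ℕ} (S : CosetSys Γ) (F : RepFamily M n) where
  /-- the reindexing -/
  e : S.X ≃ F.X
  rep_eq : ∀ x, S.rep x = F.rep (e x)

namespace CosetSys

variable {n₁ n₂ : ℕ} {F₁ : RepFamily M n₁} {F₂ : RepFamily M n₂}

theorem Model.isInj {n : ℕ} {S : CosetSys Γ} {F : RepFamily M n} (m : S.Model F) : S.IsInj := by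
  intro x y g h
  rw [m.rep_eq, m.rep_eq] at h
  exact m.e.injective (F.sinj _ _ _ h)

/-- **Commutativity** of two coset systems modelled on families of coprime determinants. -/
theorem heckeHom_comm_of_model (hΓ : Gamma1 M ≤ Γ) (S₁ S₂ : CosetSys Γ) (m₁ : S₁.Model F₁)
    (m₂ : S₂.Model F₂) (h₁ : n₁ ≠ 0) (h₂ : n₂ ≠ 0) (hc₁ : Nat.Coprime n₁ M)
    (hc₂ : Nat.Coprime n₂ M) (hc : Nat.Coprime n₁ n₂) (A : Type*) [AddCommGroup A]
    (φ : Additive Γ →+ A) :
    S₁.heckeHom A (S₂.heckeHom A φ) = S₂.heckeHom A (S₁.heckeHom A φ) := by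
  rw [← CosetSys.heckeHom_comp_sys, ← CosetSys.heckeHom_comp_sys]
  have hex : ∀ a : S₁.X × S₂.X, ∃ (b : S₂.X × S₁.X) (g : Γ),
      S₁.rep b.2 * S₂.rep b.1 = toMat g * (S₂.rep a.2 * S₁.rep a.1) := by
    rintro ⟨x, y⟩
    obtain ⟨y', x', g, hg⟩ := RepFamily.exists_swap F₁ F₂ h₁ h₂ hc₁ hc₂ (m₁.e x) (m₂.e y)
    refine ⟨(m₂.e.symm y', m₁.e.symm x'), inclG hΓ g, ?_⟩
    rw [m₁.rep_eq, m₂.rep_eq, m₁.rep_eq, m₂.rep_eq, Equiv.apply_symm_apply,
      Equiv.apply_symm_apply, toMat_inclG]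
    exact hg
  choose e₀ u hu using hex
  have hprod : ∀ {x x' : S₁.X} {y y' : S₂.X} {U : Matrix (Fin 2) (Fin 2) ℤ},
      S₂.rep y * S₁.rep x = U * (S₂.rep y' * S₁.rep x') → x = x' ∧ y = y' := by
    intro x x' y y' U h
    rw [m₁.rep_eq, m₂.rep_eq, m₁.rep_eq, m₂.rep_eq] at h
    obtain ⟨hx, hy⟩ := RepFamily.prod_sinj F₁ F₂ h₁ hc h
    exact ⟨m₁.e.injective hx, m₂.e.injective hy⟩
  have hprod' : ∀ {x x' : S₁.X} {y y' : S₂.X} {U : Matrix (Fin 2) (Fin 2) ℤ},
      S₁.rep x * S₂.rep y = U * (S₁.rep x' * S₂.rep y') → x = x' ∧ y = y' := by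
    intro x x' y y' U h
    rw [m₁.rep_eq, m₂.rep_eq, m₁.rep_eq, m₂.rep_eq] at h
    obtain ⟨hy, hx⟩ := RepFamily.prod_sinj F₂ F₁ h₂ hc.symm h
    exact ⟨m₁.e.injective hx, m₂.e.injective hy⟩
  have hinj : Function.Injective e₀ := by
    intro a b hab
    have ha := hu a
    have hb := hu b
    rw [hab] at ha
    rw [hb] at ha
    have h3 := eq_toMat_mul_of_mul_eq ha.symm
    obtain ⟨hx, hy⟩ := hprod h3
    exact Prod.ext hx hy
  have hcard : Fintype.card (S₁.X × S₂.X) = Fintype.card (S₂.X × S₁.X) := by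
    rw [Fintype.card_prod, Fintype.card_prod, mul_comm]
  have hbij : Function.Bijective e₀ :=
    (Fintype.bijective_iff_injective_and_card e₀).mpr ⟨hinj, hcard⟩
  let e : (S₁.comp S₂).X ≃ (S₂.comp S₁).X := Equiv.ofBijective e₀ hbij
  have hS' : (S₂.comp S₁).IsInj := by
    rintro ⟨y, x⟩ ⟨y', x'⟩ g h
    have := hprod' (U := toMat g) h
    exact Prod.ext this.2 this.1
  exact (CosetSys.heckeHom_eq_of_equiv_of_isInj (S₁.comp S₂) (S₂.comp S₁) hS' e u
    (fun a => hu a) A φ).symm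

/-- Two coset systems modelled on families of the same determinant and level induce the same
operator. -/
theorem heckeHom_eq_of_model {n : ℕ} {F F' : RepFamily M n} (hΓ : Gamma1 M ≤ Γ)
    (S S' : CosetSys Γ) (m : S.Model F) (m' : S'.Model F') (hn : n ≠ 0)
    (hcop : Nat.Coprime n M) (hl : (M : ℤ) ∣ F'.lvl - F.lvl)
    (A : Type*) [AddCommGroup A] (φ : Additive Γ →+ A) :
    S'.heckeHom A φ = S.heckeHom A φ := by
  have hn' : (n : ℤ) ≠ 0 := by exact_mod_cast hn
  have hl' : (M : ℤ) ∣ F.lvl - F'.lvl := by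
    obtain ⟨c, hc⟩ := hl
    exact ⟨-c, by linarith⟩
  -- every representative of `S` is `Γ₁(M)`-equivalent to one of `S'`
  have hex : ∀ a : S.X, ∃ (z : S'.X) (g : Γ), S'.rep z = toMat g * S.rep a := by
    intro a
    obtain ⟨z, B, hB⟩ := F'.rdiv (S.rep a) (by rw [m.rep_eq, F.det_eq])
    have hdetB : B.det = 1 := by
      have h := congrArg Matrix.det hB
      rw [m.rep_eq, F.det_eq, Matrix.det_mul, F'.det_eq] at h
      have : (n : ℤ) * 1 = n * B.det := by rw [mul_one, mul_comm]; exact h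
      exact (mul_left_cancel₀ hn' this).symm
    have hInU : InU M B := by
      refine inU_of_mul_eq hB.symm ((F'.isLvl z).levelRel ?_ hl') ?_
      · rw [m.rep_eq]
        exact F.isLvl _
      · rw [F'.det_eq]
        exact Nat.isCoprime_iff_coprime.mpr hcop
    obtain ⟨g, hg⟩ := exists_gamma1_of_inU hdetB hInU
    refine ⟨m'.e.symm z, inclG hΓ g⁻¹, ?_⟩
    rw [m'.rep_eq, Equiv.apply_symm_apply, toMat_inclG, hB, ← hg, ← Matrix.mul_assoc,
      toMat_inv_mul, Matrix.one_mul]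
  choose e₀ u hu using hex
  have hinj : Function.Injective e₀ := by
    intro a b hab
    have ha := hu a
    have hb := hu b
    rw [hab, hb] at ha
    have h3 := eq_toMat_mul_of_mul_eq ha.symm
    rw [m.rep_eq, m.rep_eq] at h3
    exact m.e.injective (F.sinj _ _ _ h3)
  have hsurj : Function.Surjective e₀ := by
    intro z
    obtain ⟨x, B, hB⟩ := F.rdiv (S'.rep z) (by rw [m'.rep_eq, F'.det_eq])
    refine ⟨m.e.symm x, ?_⟩
    have ha := hu (m.e.symm x)
    have h2 : S.rep (m.e.symm x) = toMat (u (m.e.symm x))⁻¹ * S'.rep (e₀ (m.e.symm x)) := by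
      rw [ha, ← Matrix.mul_assoc, toMat_inv_mul, Matrix.one_mul]
    rw [m.rep_eq, Equiv.apply_symm_apply] at h2
    rw [h2, ← Matrix.mul_assoc, m'.rep_eq, m'.rep_eq] at hB
    exact (m'.e.injective (F'.sinj _ _ _ hB)).symm
  let e : S.X ≃ S'.X := Equiv.ofBijective e₀ ⟨hinj, hsurj⟩
  exact CosetSys.heckeHom_eq_of_equiv_of_isInj S S' m'.isInj e u (fun a => hu a) A φ

end CosetSys

end Fermat.Agent.S48x.Coh
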