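import Fermat.Agent.S48x.Coh.Forms1
import Fermat.Agent.S48x.G1.ExportLattice

/-!
# P-S48 block (b1): the cohomological half of `LatticeInputs`

`JSideInputs M ℓ S` collects what remains to be produced by the layers (a), (b2), (c) of the
`Γ₁`-gateway once the cohomology side is fixed to `Q = QLat1 M`, `uT M`, `uD M`, `periodQ1 M`:
the Jacobian side `J, galJ, TJ, DJ, xi, …` of helper3's `LatticeInputs`.  Together with freeness of
`QLat1 M` (from the torsion count, `Coh/FreeOfCount.lean`) and the `T_p`-equivariance of the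
period map (`G1/Hecke/CohPeriod1.lean`) it yields
`LatticeInputs (heckeOps1 M 2) ℓ S`, hence `DS2.TorsionHeckeData1 (heckeOps1 M 2) ℓ S`.
-/

set_option autoImplicit false
set_option linter.unusedSectionVars false

namespace Fermat.Agent.S48x.Coh

open CongruenceSubgroup Matrix.SpecialLinearGroup
open Fermat.Agent.S48x.G1 Fermat.Agent.S48x.Nebentypus Fermat.Agent.S48x.DS2
open Fermat.Agent.S48x.G1.Export Fermat.Agent.S48x.G1.ExportL
open scoped MatrixGroups

local notation "Γℚ" => (AlgebraicClosure ℚ ≃ₐ[ℚ] AlgebraicClosure ℚ)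
local notation "Qb" => AlgebraicClosure ℚ

/-- The Jacobian side of the lattice variant of the `Γ₁`-gateway export, relative to the lattice
`QLat1 M` with its endomorphisms `uT M p`, `uD M d`. -/
structure JSideInputs (M : ℕ) [NeZero M] (ℓ : ℕ) (S : Finset ℕ) : Type 1 where
  /-- the group of points of the Jacobian -/
  J : Type
  [instJ : AddCommGroup J]
  /-- the Galois action -/
  galJ : Γℚ →* AddMonoid.End J
  /-- the Hecke correspondences -/
  TJ : ℕ → J →+ J
  /-- the diamond automorphisms -/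
  DJ : (ZMod M)ˣ → J →+ J
  /-- torsion `=` `Hom(Q, ℤ/ℓ ^ n)` -/
  xi : ∀ n : ℕ, tors J (ℓ ^ n) ≃+ (QLat1 M →+ ZMod (ℓ ^ n))
  xi_T : ∀ (n p : ℕ), p.Prime → ¬ p ∣ M → p ∉ S → ∀ x : tors J (ℓ ^ n),
    xi n ⟨TJ p x, map_mem_tors (TJ p) x.2⟩ = (xi n x).comp (uT M p).toAddMonoidHom
  xi_D : ∀ (n : ℕ) (d : (ZMod M)ˣ) (x : tors J (ℓ ^ n)),
    xi n ⟨DJ d x, map_mem_tors (DJ d) x.2⟩ = (xi n x).comp (uD M d).toAddMonoidHom
  gal_T : ∀ (σ : Γℚ) (p : ℕ), p.Prime → ¬ p ∣ M → p ∉ S → ∀ x : J,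
    galJ σ (TJ p x) = TJ p (galJ σ x)
  gal_D : ∀ (σ : Γℚ) (d : (ZMod M)ˣ) (x : J), galJ σ (DJ d x) = DJ d (galJ σ x)
  gal_level : ∀ (n : ℕ) (x : J), ℓ ^ n • x = 0 →
    ∃ L : IntermediateField ℚ Qb, FiniteDimensional ℚ L ∧
      ∀ σ : Γℚ, (∀ a ∈ L, σ a = a) → galJ σ x = x
  /-- the normalisation of the Eichler-Shimura relation -/
  diamInv : Bool
  eichlerShimura : ∀ (n p : ℕ) (hp : p.Prime) (hpM : ¬ p ∣ M), p ∉ S →
    ∀ A : ValuationSubring Qb, A.LiesOverPrime p → ∀ σ : Γℚ, A.IsFrobeniusAt σ p →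
    ∀ x : J, ℓ ^ n • x = 0 →
      galJ σ (galJ σ x) - TJ p (galJ σ x)
        + p • DJ (if diamInv then (unitOfPrime hp hpM)⁻¹ else unitOfPrime hp hpM) x = 0
  unram : ∀ (n q : ℕ), q.Prime → q ∉ S → ∀ A : ValuationSubring Qb, A.LiesOverPrime q →
    ∀ τ ∈ A.inertiaSubgroupIn ℚ, ∀ x : J, ℓ ^ n • x = 0 → galJ τ x = x

attribute [instance] JSideInputs.instJ

variable {M : ℕ} [NeZero M] {ℓ : ℕ} {S : Finset ℕ}

/-- **The lattice inputs of the `Γ₁`-gateway** from the Jacobian side, freeness of the lattice and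
the `T_p`-equivariance of the period map. -/
noncomputable def latticeInputs (I : JSideInputs M ℓ S) [Module.Free ℤ (QLat1 M)]
    (hT : TEquivariant M) : LatticeInputs (heckeOps1 M 2) ℓ S where
  Q := QLat1 M
  P := (periodQ1 M).toAddMonoidHom
  P_injective := periodQ1_injective M
  uT := uT M
  uD := uD M
  uD_one := uD_one M
  uD_mul := uD_mul M
  comm_T_T p q _ _ _ _ _ _ := uT_comm M p q
  comm_T_D p d _ _ _ := uT_uD_comm M p d
  P_T p hp hpM _ f := periodQ1_heckeT M hT hp hpM f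
  P_D d f := periodQ1_diam M d f
  J := I.J
  galJ := I.galJ
  TJ := I.TJ
  DJ := I.DJ
  xi := I.xi
  xi_T := I.xi_T
  xi_D := I.xi_D
  gal_T := I.gal_T
  gal_D := I.gal_D
  gal_level := I.gal_level
  diamInv := I.diamInv
  eichlerShimura := I.eichlerShimura
  unram := I.unram

/-- **The `Γ₁`-gateway export** from the Jacobian side. -/
theorem nonempty_torsionHeckeData1_of_jSide (hℓ : ℓ.Prime) (I : JSideInputs M ℓ S)
    [Module.Free ℤ (QLat1 M)] (hT : TEquivariant M) :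
    Nonempty (TorsionHeckeData1 (heckeOps1 M 2) ℓ S) :=
  ⟨torsionHeckeData1 (latticeInputs I hT) hℓ⟩

end Fermat.Agent.S48x.Coh
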