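import Fermat.Agent.S48x.Coh.CosetOps

/-!
# P-S48 block (b1): representative families of level `M`

`LevelRel M R A` : the integer matrices `R`, `A` are upper triangular modulo `M` with the same
upper left entry modulo `M`.  If `B * R = A`, `LevelRel M R A` and `det R` is prime to `M`, then
`B` is upper triangular unipotent modulo `M` in the sense `B 1 0 ≡ 0`, `B 0 0 ≡ 1`; with
`det B = 1` this is membership in `Γ₁(M)`.

`RepFamily M n` : a finite family of integer matrices of determinant `n`, congruent to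
`[[c, *], [0, *]]` modulo `M` for a fixed `c`, complete for right divisibility and pairwise left inequivalent.
It defines a coset system for `Γ₁(M)`; two families of coprime determinants commute.
-/

set_option autoImplicit false

namespace Fermat.Agent.S48x.Coh

open scoped MatrixGroups
open CongruenceSubgroup
open Fermat.Agent.Gateway.A2 Fermat.Agent.Gateway.A2.Count

/-- `A ≡ [[c, *], [0, *]]` modulo `M`. -/
def IsLvl (M : ℕ) (c : ℤ) (A : Matrix (Fin 2) (Fin 2) ℤ) : Prop :=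
  (M : ℤ) ∣ A 1 0 ∧ (M : ℤ) ∣ A 0 0 - c

/-- `A ≡ [[1, *], [0, *]]` modulo `M`. -/
abbrev InU (M : ℕ) (A : Matrix (Fin 2) (Fin 2) ℤ) : Prop := IsLvl M 1 A

/-- `R` and `A` are upper triangular modulo `M` with the same upper left entry. -/
def LevelRel (M : ℕ) (R A : Matrix (Fin 2) (Fin 2) ℤ) : Prop :=
  (M : ℤ) ∣ R 1 0 ∧ (M : ℤ) ∣ A 1 0 ∧ (M : ℤ) ∣ A 0 0 - R 0 0

theorem IsLvl.levelRel {M : ℕ} {c c' : ℤ} {R A : Matrix (Fin 2) (Fin 2) ℤ} (hR : IsLvl M c R)
    (hA : IsLvl M c' A) (hcc : (M : ℤ) ∣ c' - c) : LevelRel M R A :=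
  ⟨hR.1, hA.1, by
    have : A 0 0 - R 0 0 = (A 0 0 - c') - (R 0 0 - c) + (c' - c) := by ring
    rw [this]
    exact dvd_add (dvd_sub hA.2 hR.2) hcc⟩

theorem IsLvl.mul {M : ℕ} {c c' : ℤ} {A B : Matrix (Fin 2) (Fin 2) ℤ} (hA : IsLvl M c A)
    (hB : IsLvl M c' B) : IsLvl M (c * c') (A * B) := by
  obtain ⟨a, ha⟩ := hA.1
  obtain ⟨a', ha'⟩ := hA.2
  obtain ⟨b, hb⟩ := hB.1
  obtain ⟨b', hb'⟩ := hB.2
  constructor
  · rw [Matrix.mul_apply, Fin.sum_univ_two, ha, hb]
    exact ⟨a * B 0 0 + A 1 1 * b, by ring⟩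
  · rw [Matrix.mul_apply, Fin.sum_univ_two, hb]
    have h1 : A 0 0 = c + M * a' := by linarith
    have h2 : B 0 0 = c' + M * b' := by linarith
    rw [h1, h2]
    exact ⟨a' * c' + c * b' + M * a' * b' + A 0 1 * b, by ring⟩

theorem IsLvl.congr {M : ℕ} {c c' : ℤ} {A : Matrix (Fin 2) (Fin 2) ℤ} (hA : IsLvl M c A)
    (hcc : (M : ℤ) ∣ c - c') : IsLvl M c' A :=
  ⟨hA.1, by
    have : A 0 0 - c' = (A 0 0 - c) + (c - c') := by ring
    rw [this]
    exact dvd_add hA.2 hcc⟩

theorem inU_one (M : ℕ) : InU M (1 : Matrix (Fin 2) (Fin 2) ℤ) := by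
  constructor <;> simp

/-- The key level lemma. -/
theorem inU_of_mul_eq {M : ℕ} {B R A : Matrix (Fin 2) (Fin 2) ℤ} (h : B * R = A)
    (hRA : LevelRel M R A) (hcop : IsCoprime (R.det) (M : ℤ)) : InU M B := by
  obtain ⟨r, hr⟩ := hRA.1
  obtain ⟨a, ha⟩ := hRA.2.1
  obtain ⟨e, he⟩ := hRA.2.2
  have hadj : R.det • B = A * R.adjugate := by
    rw [← h, Matrix.mul_assoc, Matrix.mul_adjugate, Matrix.mul_smul, Matrix.mul_one]
  have h10 : R.det * B 1 0 = A 1 0 * R 1 1 - A 1 1 * R 1 0 := by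
    have := congrFun (congrFun hadj 1) 0
    simp only [Matrix.smul_apply, smul_eq_mul, Matrix.mul_apply, Fin.sum_univ_two,
      Matrix.adjugate_fin_two, Matrix.of_apply, Matrix.cons_val', Matrix.cons_val_zero,
      Matrix.cons_val_one, Matrix.cons_val_fin_one] at this
    linarith
  have h00 : R.det * B 0 0 = A 0 0 * R 1 1 - A 0 1 * R 1 0 := by
    have := congrFun (congrFun hadj 0) 0
    simp only [Matrix.smul_apply, smul_eq_mul, Matrix.mul_apply, Fin.sum_univ_two,
      Matrix.adjugate_fin_two, Matrix.of_apply, Matrix.cons_val', Matrix.cons_val_zero,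
      Matrix.cons_val_one, Matrix.cons_val_fin_one] at this
    linarith
  have hdet : R.det = R 0 0 * R 1 1 - R 0 1 * R 1 0 := Matrix.det_fin_two R
  constructor
  · apply hcop.symm.dvd_of_dvd_mul_left
    rw [h10, ha, hr]
    exact ⟨a * R 1 1 - A 1 1 * r, by ring⟩
  · apply hcop.symm.dvd_of_dvd_mul_left
    have : R.det * (B 0 0 - 1) = (A 0 0 - R 0 0) * R 1 1 - A 0 1 * R 1 0 + R 0 1 * R 1 0 := by
      rw [mul_sub, h00, mul_one, hdet]
      ring
    rw [this, he, hr]
    exact ⟨e * R 1 1 - A 0 1 * r + R 0 1 * r, by ring⟩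

/-- An integer matrix of determinant one in `InU M` is the matrix of an element of `Γ₁(M)`. -/
theorem exists_gamma1_of_inU {M : ℕ} {B : Matrix (Fin 2) (Fin 2) ℤ} (hdet : B.det = 1)
    (hB : InU M B) : ∃ g : Gamma1 M, toMat g = B := by
  let g : SL(2, ℤ) := ⟨B, hdet⟩
  have hmem : g ∈ Gamma1 M := by
    obtain ⟨c, hc⟩ := hB.1
    obtain ⟨a, ha⟩ := hB.2
    have hd : B.det = B 0 0 * B 1 1 - B 0 1 * B 1 0 := Matrix.det_fin_two B
    have h00 : ((B 0 0 : ℤ) : ZMod M) = 1 := by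
      have : B 0 0 = 1 + M * a := by linarith
      rw [this]
      simp
    have h10 : ((B 1 0 : ℤ) : ZMod M) = 0 := by
      rw [hc]
      simp
    have h11 : ((B 1 1 : ℤ) : ZMod M) = 1 := by
      have h := congrArg (Int.cast : ℤ → ZMod M) (hd.symm.trans hdet)
      push_cast at h
      rw [h00, h10, mul_zero, sub_zero, one_mul] at h
      exact h
    exact (Gamma1_mem M g).mpr ⟨h00, h11, h10⟩
  exact ⟨⟨g, hmem⟩, rfl⟩

theorem inU_toMat {M : ℕ} (g : Gamma1 M) : InU M (toMat g) := by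
  have h := (Gamma1_mem M (g : SL(2, ℤ))).mp g.2
  constructor
  · exact (ZMod.intCast_zmod_eq_zero_iff_dvd _ _).mp h.2.2
  · apply (ZMod.intCast_zmod_eq_zero_iff_dvd _ _).mp
    push_cast
    rw [h.1, sub_self]

/-- A family of representatives of determinant `n` and level `M`. -/
structure RepFamily (M n : ℕ) where
  /-- the index set -/
  X : Type
  [instFintype : Fintype X]
  /-- the representatives -/
  rep : X → Matrix (Fin 2) (Fin 2) ℤ
  det_eq : ∀ x, (rep x).det = n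
  /-- the common upper left entry modulo `M` -/
  lvl : ℤ
  isLvl : ∀ x, IsLvl M lvl (rep x)
  rdiv : ∀ A : Matrix (Fin 2) (Fin 2) ℤ, (n : ℤ) ∣ A.det → ∃ (x : X)
    (B : Matrix (Fin 2) (Fin 2) ℤ), A = B * rep x
  sinj : ∀ (x y : X) (U : Matrix (Fin 2) (Fin 2) ℤ), rep x = U * rep y → x = y

attribute [instance] RepFamily.instFintype

namespace RepFamily

variable {M n : ℕ} (F : RepFamily M n)

theorem det_ne (hn : n ≠ 0) (x : F.X) : (F.rep x).det ≠ 0 := by
  rw [F.det_eq]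
  exact_mod_cast hn

/-- Completeness: `rep x * γ ∈ Γ₁(M) * rep x'`. -/
theorem complete (hn : n ≠ 0) (hcop : Nat.Coprime n M) (x : F.X) (γ : Gamma1 M) :
    ∃ (x' : F.X) (g : Gamma1 M), F.rep x * toMat γ = toMat g * F.rep x' := by
  have hdetA : (F.rep x * toMat γ).det = n := by
    rw [Matrix.det_mul, F.det_eq, show (toMat γ).det = 1 from (γ : SL(2, ℤ)).2, mul_one]
  obtain ⟨x', B, hB⟩ := F.rdiv (F.rep x * toMat γ) (by rw [hdetA])
  have hdetB : B.det = 1 := by
    have h := congrArg Matrix.det hB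
    rw [hdetA, Matrix.det_mul, F.det_eq] at h
    have hn' : (n : ℤ) ≠ 0 := by exact_mod_cast hn
    have : (n : ℤ) * 1 = n * B.det := by rw [mul_one, mul_comm]; exact h
    exact (mul_left_cancel₀ hn' this).symm
  have hInU : InU M B := by
    refine inU_of_mul_eq hB.symm
      ((F.isLvl x').levelRel ((F.isLvl x).mul (inU_toMat γ)) (by simp)) ?_
    rw [F.det_eq]
    exact Nat.isCoprime_iff_coprime.mpr hcop
  obtain ⟨g, hg⟩ := exists_gamma1_of_inU hdetB hInU
  exact ⟨x', g, by rw [hg]; exact hB⟩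

end RepFamily

end Fermat.Agent.S48x.Coh
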